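import Mathlib

/-!
# S22, part 1: the abstract finiteness lemma
-/

set_option autoImplicit false

namespace Fermat.Agent.S22

namespace AbstractFiniteness

variable {S 𝒱 : Type*} [AddCommGroup S] [Module ℂ S] [AddCommGroup 𝒱] [Module ℂ 𝒱]

/-- The `ℤ`-submodule of pairs `(A, T)` of endomorphisms of `𝒱` and of `S` such that `A` preserves
the lattice `L` and `P` intertwines `T` with `A`. -/
def intertwiningPairs (P : S →ₗ[ℂ] 𝒱) (L : Submodule ℤ 𝒱) :
    Submodule ℤ (Module.End ℂ 𝒱 × Module.End ℂ S) where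
  carrier := {p | (∀ c ∈ L, p.1 c ∈ L) ∧ ∀ f : S, P (p.2 f) = p.1 (P f)}
  add_mem' := by
    rintro a b ⟨ha1, ha2⟩ ⟨hb1, hb2⟩
    refine ⟨fun c hc => ?_, fun f => ?_⟩
    · simpa using L.add_mem (ha1 c hc) (hb1 c hc)
    · simp [ha2, hb2]
  zero_mem' := ⟨fun c _ => by simp, fun f => by simp⟩
  smul_mem' := by
    rintro n a ⟨ha1, ha2⟩
    refine ⟨fun c hc => ?_, fun f => ?_⟩
    · simpa using L.smul_mem n (ha1 c hc)
    · simp [ha2]

theorem mem_intertwiningPairs (P : S →ₗ[ℂ] 𝒱) (L : Submodule ℤ 𝒱)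
    (p : Module.End ℂ 𝒱 × Module.End ℂ S) :
    p ∈ intertwiningPairs P L ↔ (∀ c ∈ L, p.1 c ∈ L) ∧ ∀ f : S, P (p.2 f) = p.1 (P f) :=
  Iff.rfl

/-- Restriction of the first component of an intertwining pair to the lattice `L`. -/
def intertwiningPairsRestrict (P : S →ₗ[ℂ] 𝒱) (L : Submodule ℤ 𝒱) :
    intertwiningPairs P L →ₗ[ℤ] (L →ₗ[ℤ] L) where
  toFun p := (p.1.1.restrictScalars ℤ).restrict p.2.1
  map_add' p q := by
    ext x
    simp
  map_smul' n p := by
    ext x
    simp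

theorem intertwiningPairsRestrict_apply (P : S →ₗ[ℂ] 𝒱) (L : Submodule ℤ 𝒱)
    (p : intertwiningPairs P L) (x : L) :
    ((intertwiningPairsRestrict P L p x : L) : 𝒱) = p.1.1 (x : 𝒱) :=
  rfl

/-- The second component of an intertwining pair. -/
def intertwiningPairsSnd (P : S →ₗ[ℂ] 𝒱) (L : Submodule ℤ 𝒱) :
    intertwiningPairs P L →ₗ[ℤ] Module.End ℂ S :=
  (LinearMap.snd ℤ (Module.End ℂ 𝒱) (Module.End ℂ S)).comp (intertwiningPairs P L).subtype

theorem intertwiningPairsSnd_apply (P : S →ₗ[ℂ] 𝒱) (L : Submodule ℤ 𝒱)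
    (p : intertwiningPairs P L) : intertwiningPairsSnd P L p = p.1.2 :=
  rfl

/-- Key point: an intertwining pair whose first component vanishes on `L` has vanishing second
component, provided `P` is injective and its range is contained in the `ℂ`-span of `L`. -/
theorem ker_intertwiningPairsRestrict_le (P : S →ₗ[ℂ] 𝒱) (hP : Function.Injective P)
    (L : Submodule ℤ 𝒱)
    (hPL : (LinearMap.range P : Set 𝒱) ⊆ Submodule.span ℂ (L : Set 𝒱)) :
    LinearMap.ker (intertwiningPairsRestrict P L) ≤ LinearMap.ker (intertwiningPairsSnd P L) := by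
  intro p hp
  rw [LinearMap.mem_ker] at hp ⊢
  rw [intertwiningPairsSnd_apply]
  have h1 : ∀ x ∈ L, p.1.1 x = 0 := by
    intro x hx
    have h := intertwiningPairsRestrict_apply P L p ⟨x, hx⟩
    rw [hp] at h
    simpa using h.symm
  have h2 : Submodule.span ℂ (L : Set 𝒱) ≤ LinearMap.ker p.1.1 := by
    rw [Submodule.span_le]
    intro x hx
    exact LinearMap.mem_ker.mpr (h1 x hx)
  ext f
  apply hP
  rw [p.2.2 f, LinearMap.zero_apply, map_zero]
  exact LinearMap.mem_ker.mp (h2 (hPL ⟨f, rfl⟩))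

/-- The set of second components of intertwining pairs is a `ℤ`-subalgebra of `Module.End ℂ S`. -/
def intertwinedSubalgebra (P : S →ₗ[ℂ] 𝒱) (L : Submodule ℤ 𝒱) :
    Subalgebra ℤ (Module.End ℂ S) where
  carrier := {T | ∃ 𝒯 : Module.End ℂ 𝒱, (∀ c ∈ L, 𝒯 c ∈ L) ∧ ∀ f : S, P (T f) = 𝒯 (P f)}
  mul_mem' := by
    rintro a b ⟨A, hA1, hA2⟩ ⟨B, hB1, hB2⟩
    refine ⟨A * B, fun c hc => ?_, fun f => ?_⟩
    · simpa using hA1 _ (hB1 c hc)
    · simp [hA2, hB2]
  add_mem' := by
    rintro a b ⟨A, hA1, hA2⟩ ⟨B, hB1, hB2⟩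
    refine ⟨A + B, fun c hc => ?_, fun f => ?_⟩
    · simpa using L.add_mem (hA1 c hc) (hB1 c hc)
    · simp [hA2, hB2]
  algebraMap_mem' := by
    intro n
    refine ⟨algebraMap ℤ (Module.End ℂ 𝒱) n, fun c hc => ?_, fun f => ?_⟩
    · have h : (algebraMap ℤ (Module.End ℂ 𝒱) n) c = n • c := by
        simp
      rw [h]
      exact L.smul_mem n hc
    · simp

theorem intertwinedSubalgebra_toSubmodule_le (P : S →ₗ[ℂ] 𝒱) (L : Submodule ℤ 𝒱) :
    Subalgebra.toSubmodule (intertwinedSubalgebra P L) ≤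
      LinearMap.range (intertwiningPairsSnd P L) := by
  rintro T ⟨𝒯, h1, h2⟩
  exact ⟨⟨(𝒯, T), h1, h2⟩, rfl⟩

/-- The module of second components of intertwining pairs is Noetherian over `ℤ`. -/
theorem isNoetherian_range_intertwiningPairsSnd (P : S →ₗ[ℂ] 𝒱) (hP : Function.Injective P)
    (L : Submodule ℤ 𝒱) (hL : L.FG)
    (hPL : (LinearMap.range P : Set 𝒱) ⊆ Submodule.span ℂ (L : Set 𝒱)) :
    IsNoetherian ℤ (LinearMap.range (intertwiningPairsSnd P L)) := by
  have : Module.Finite ℤ L := Module.Finite.iff_fg.mpr hL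
  have : IsNoetherian ℤ L := isNoetherian_of_isNoetherianRing_of_finite ℤ L
  have : IsNoetherian ℤ (L →ₗ[ℤ] L) := isNoetherian_linearMap ℤ L L
  have : IsNoetherian ℤ (LinearMap.range (intertwiningPairsRestrict P L)) :=
    isNoetherian_submodule' _
  have : IsNoetherian ℤ
      (intertwiningPairs P L ⧸ LinearMap.ker (intertwiningPairsRestrict P L)) :=
    isNoetherian_of_linearEquiv (intertwiningPairsRestrict P L).quotKerEquivRange.symm
  have hker := ker_intertwiningPairsRestrict_le P hP L hPL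
  have hrange : LinearMap.range ((LinearMap.ker (intertwiningPairsRestrict P L)).liftQ
      (intertwiningPairsSnd P L) hker) = LinearMap.range (intertwiningPairsSnd P L) :=
    Submodule.range_liftQ _ _ _
  rw [← hrange]
  exact isNoetherian_range _

end AbstractFiniteness

/-- Abstract finiteness lemma.  Let `P : S → 𝒱` be an injective `ℂ`-linear map, `L` a finitely
generated `ℤ`-submodule of `𝒱` whose `ℂ`-span contains the range of `P`, and `G` a set of
endomorphisms of `S` each of which is intertwined by `P` with an endomorphism of `𝒱` preserving `L`.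
Then the `ℤ`-algebra generated by `G` is a finitely generated `ℤ`-module. -/
theorem finite_adjoin_of_lattice {S 𝒱 : Type*} [AddCommGroup S] [Module ℂ S]
    [AddCommGroup 𝒱] [Module ℂ 𝒱]
    (P : S →ₗ[ℂ] 𝒱) (hP : Function.Injective P)
    (L : Submodule ℤ 𝒱) (hL : L.FG)
    (hPL : (LinearMap.range P : Set 𝒱) ⊆ Submodule.span ℂ (L : Set 𝒱))
    (G : Set (Module.End ℂ S))
    (hG : ∀ T ∈ G, ∃ 𝒯 : Module.End ℂ 𝒱, (∀ c ∈ L, 𝒯 c ∈ L) ∧ ∀ f : S, P (T f) = 𝒯 (P f)) :
    Module.Finite ℤ ↥(Algebra.adjoin ℤ G) := by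
  have := AbstractFiniteness.isNoetherian_range_intertwiningPairsSnd P hP L hL hPL
  have hle : Algebra.adjoin ℤ G ≤ AbstractFiniteness.intertwinedSubalgebra P L :=
    Algebra.adjoin_le hG
  have hle' : Subalgebra.toSubmodule (Algebra.adjoin ℤ G) ≤
      LinearMap.range (AbstractFiniteness.intertwiningPairsSnd P L) :=
    le_trans (Subalgebra.toSubmodule.monotone hle)
      (AbstractFiniteness.intertwinedSubalgebra_toSubmodule_le P L)
  have : IsNoetherian ℤ (Subalgebra.toSubmodule (Algebra.adjoin ℤ G)) :=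
    isNoetherian_of_injective (Submodule.inclusion hle') (Submodule.inclusion_injective hle')
  exact (inferInstance : Module.Finite ℤ (Subalgebra.toSubmodule (Algebra.adjoin ℤ G)))

end Fermat.Agent.S22
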