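import Mathlib

/-!
# S22, part 2: homogeneous polynomials in two variables and substitution by integer matrices

`subst R g : MvPolynomial (Fin 2) R →ₐ[R] MvPolynomial (Fin 2) R` is the substitution
`X i ↦ g i 0 * X 0 + g i 1 * X 1` for an integer matrix `g`.
It is a RIGHT action: `subst (g * h) P = subst h (subst g P)`.
-/

set_option autoImplicit false

namespace Fermat.Agent.S22

open MvPolynomial

/-- Substitution `X i ↦ g i 0 * X 0 + g i 1 * X 1` by an integer `2 × 2` matrix. -/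
noncomputable def subst (R : Type*) [CommRing R] (g : Matrix (Fin 2) (Fin 2) ℤ) :
    MvPolynomial (Fin 2) R →ₐ[R] MvPolynomial (Fin 2) R :=
  MvPolynomial.aeval (fun i : Fin 2 =>
    (C ((g i 0 : ℤ) : R) * X 0 + C ((g i 1 : ℤ) : R) * X 1 : MvPolynomial (Fin 2) R))

section
variable {R : Type*} [CommRing R]

theorem subst_X (g : Matrix (Fin 2) (Fin 2) ℤ) (i : Fin 2) :
    subst R g (X i) = C ((g i 0 : ℤ) : R) * X 0 + C ((g i 1 : ℤ) : R) * X 1 := by
  unfold subst
  exact aeval_X _ i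

theorem subst_C (g : Matrix (Fin 2) (Fin 2) ℤ) (a : R) : subst R g (C a) = C a := by
  unfold subst
  rw [aeval_C]
  rfl

theorem subst_one (P : MvPolynomial (Fin 2) R) : subst R 1 P = P := by
  have h : subst R 1 = AlgHom.id R (MvPolynomial (Fin 2) R) := by
    apply MvPolynomial.algHom_ext
    rw [Fin.forall_fin_two]
    constructor <;> simp [subst_X]
  rw [h]
  rfl

/-- `subst` is a right action. -/
theorem subst_mul (g h : Matrix (Fin 2) (Fin 2) ℤ) (P : MvPolynomial (Fin 2) R) :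
    subst R (g * h) P = subst R h (subst R g P) := by
  have key : subst R (g * h) = (subst R h).comp (subst R g) := by
    apply MvPolynomial.algHom_ext
    intro i
    simp only [AlgHom.comp_apply, subst_X, map_add, map_mul, subst_C, Matrix.mul_apply,
      Fin.sum_univ_two, Int.cast_add, Int.cast_mul]
    ring
  rw [key]
  rfl

theorem eval_subst (g : Matrix (Fin 2) (Fin 2) ℤ) (v : Fin 2 → R) (P : MvPolynomial (Fin 2) R) :
    eval v (subst R g P) =
      eval (fun i : Fin 2 => ((g i 0 : ℤ) : R) * v 0 + ((g i 1 : ℤ) : R) * v 1) P := by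
  have key : (eval v).comp (subst R g : MvPolynomial (Fin 2) R →+* MvPolynomial (Fin 2) R) =
      eval (fun i : Fin 2 => ((g i 0 : ℤ) : R) * v 0 + ((g i 1 : ℤ) : R) * v 1) := by
    apply MvPolynomial.ringHom_ext
    · intro a
      simp
    · intro i
      simp [subst_X]
  exact RingHom.congr_fun key P

theorem subst_isHomogeneous (g : Matrix (Fin 2) (Fin 2) ℤ) {P : MvPolynomial (Fin 2) R} {n : ℕ}
    (hP : P.IsHomogeneous n) : (subst R g P).IsHomogeneous n := by
  have h := hP.aeval (S := R) (n := 1)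
    (fun i : Fin 2 =>
      (C ((g i 0 : ℤ) : R) * X 0 + C ((g i 1 : ℤ) : R) * X 1 : MvPolynomial (Fin 2) R))
    (fun i => (isHomogeneous_C_mul_X _ _).add (isHomogeneous_C_mul_X _ _))
  rw [one_mul] at h
  exact h

theorem map_subst {S : Type*} [CommRing S] (φ : R →+* S) (g : Matrix (Fin 2) (Fin 2) ℤ)
    (P : MvPolynomial (Fin 2) R) : map φ (subst R g P) = subst S g (map φ P) := by
  have key : (map φ).comp (subst R g : MvPolynomial (Fin 2) R →+* MvPolynomial (Fin 2) R) =
      (subst S g : MvPolynomial (Fin 2) S →+* MvPolynomial (Fin 2) S).comp (map φ) := by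
    apply MvPolynomial.ringHom_ext
    · intro a
      simp
    · intro i
      simp [subst_X]
  exact RingHom.congr_fun key P

end

/-- A complex polynomial is integral if all its coefficients are integers. -/
def IsIntPoly (P : MvPolynomial (Fin 2) ℂ) : Prop :=
  P ∈ Set.range (MvPolynomial.map (Int.castRingHom ℂ) :
    MvPolynomial (Fin 2) ℤ → MvPolynomial (Fin 2) ℂ)

theorem isIntPoly_iff (P : MvPolynomial (Fin 2) ℂ) :
    IsIntPoly P ↔ ∀ s, ∃ n : ℤ, P.coeff s = (n : ℂ) := by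
  constructor
  · rintro ⟨Q, rfl⟩ s
    exact ⟨Q.coeff s, by rw [coeff_map]; rfl⟩
  · intro h
    choose n hn using h
    refine ⟨∑ s ∈ P.support, monomial s (n s), ?_⟩
    rw [map_sum]
    conv_rhs => rw [← support_sum_monomial_coeff P]
    refine Finset.sum_congr rfl fun s _ => ?_
    rw [map_monomial, hn s]
    rfl

theorem IsIntPoly.zero : IsIntPoly 0 :=
  ⟨0, map_zero _⟩

theorem IsIntPoly.add {P Q : MvPolynomial (Fin 2) ℂ} (hP : IsIntPoly P) (hQ : IsIntPoly Q) :
    IsIntPoly (P + Q) := by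
  obtain ⟨p, rfl⟩ := hP
  obtain ⟨q, rfl⟩ := hQ
  exact ⟨p + q, map_add _ _ _⟩

theorem IsIntPoly.neg {P : MvPolynomial (Fin 2) ℂ} (hP : IsIntPoly P) : IsIntPoly (-P) := by
  obtain ⟨p, rfl⟩ := hP
  exact ⟨-p, map_neg _ _⟩

theorem IsIntPoly.sub {P Q : MvPolynomial (Fin 2) ℂ} (hP : IsIntPoly P) (hQ : IsIntPoly Q) :
    IsIntPoly (P - Q) := by
  obtain ⟨p, rfl⟩ := hP
  obtain ⟨q, rfl⟩ := hQ
  exact ⟨p - q, map_sub _ _ _⟩

theorem IsIntPoly.zsmul {P : MvPolynomial (Fin 2) ℂ} (hP : IsIntPoly P) (n : ℤ) :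
    IsIntPoly (n • P) := by
  obtain ⟨p, rfl⟩ := hP
  exact ⟨n • p, map_zsmul _ _ _⟩

theorem IsIntPoly.sum {ι : Type*} (s : Finset ι) {P : ι → MvPolynomial (Fin 2) ℂ}
    (hP : ∀ i ∈ s, IsIntPoly (P i)) : IsIntPoly (∑ i ∈ s, P i) := by
  classical
  induction s using Finset.induction_on with
  | empty => simpa using IsIntPoly.zero
  | insert a s ha ih =>
    rw [Finset.sum_insert ha]
    exact (hP a (Finset.mem_insert_self a s)).add
      (ih fun i hi => hP i (Finset.mem_insert_of_mem hi))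

theorem IsIntPoly.subst (g : Matrix (Fin 2) (Fin 2) ℤ) {P : MvPolynomial (Fin 2) ℂ}
    (hP : IsIntPoly P) : IsIntPoly (subst ℂ g P) := by
  obtain ⟨p, rfl⟩ := hP
  exact ⟨Fermat.Agent.S22.subst ℤ g p, map_subst _ _ _⟩

/-- The `ℤ`-module of integral homogeneous polynomials of degree `m` (inside complex
polynomials). -/
def intHomog (m : ℕ) : Submodule ℤ (MvPolynomial (Fin 2) ℂ) where
  carrier := {P | P.IsHomogeneous m ∧ IsIntPoly P}
  add_mem' := fun {_ _} hP hQ => ⟨hP.1.add hQ.1, hP.2.add hQ.2⟩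
  zero_mem' := ⟨MvPolynomial.isHomogeneous_zero _ _ _, IsIntPoly.zero⟩
  smul_mem' := fun n P hP =>
    ⟨zsmul_mem (show P ∈ MvPolynomial.homogeneousSubmodule (Fin 2) ℂ m from hP.1) n, hP.2.zsmul n⟩

theorem mem_intHomog {m : ℕ} {P : MvPolynomial (Fin 2) ℂ} :
    P ∈ intHomog m ↔ P.IsHomogeneous m ∧ IsIntPoly P := Iff.rfl

/-- `intHomog m` is the image of the integral homogeneous polynomials of degree `m` under the
coefficient-wise cast map. -/
theorem intHomog_eq_map (m : ℕ) :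
    intHomog m = (MvPolynomial.homogeneousSubmodule (Fin 2) ℤ m).map
      ((MvPolynomial.map (Int.castRingHom ℂ) :
        MvPolynomial (Fin 2) ℤ →+* MvPolynomial (Fin 2) ℂ).toAddMonoidHom.toIntLinearMap) := by
  ext P
  rw [mem_intHomog, Submodule.mem_map]
  constructor
  · rintro ⟨hP, Q, rfl⟩
    exact ⟨Q, IsHomogeneous.of_map (f := Int.castRingHom ℂ) Int.cast_injective hP, rfl⟩
  · rintro ⟨Q, hQ, rfl⟩
    exact ⟨IsHomogeneous.map hQ _, Q, rfl⟩

/-- The integral homogeneous polynomials of degree `m` form a finitely generated `ℤ`-module. -/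
theorem intHomog_fg (m : ℕ) : (intHomog m).FG := by
  rw [intHomog_eq_map]
  exact (MvPolynomial.homogeneousSubmodule_fg (Fin 2) ℤ m).map _

/-! ### Further lemmas -/

/-- Evaluation of a homogeneous polynomial of degree `n` at a scaled point. -/
theorem eval_smul_of_isHomogeneous {σ R : Type*} [CommSemiring R] {P : MvPolynomial σ R} {n : ℕ}
    (hP : P.IsHomogeneous n) (a : R) (v : σ → R) :
    eval (fun i => a * v i) P = a ^ n * eval v P := by
  rw [eval_eq, eval_eq, Finset.mul_sum]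
  refine Finset.sum_congr rfl fun d hd => ?_
  have hd' : ∑ i ∈ d.support, d i = n := (hP.degree_eq_sum_deg_support hd).symm
  simp_rw [mul_pow]
  rw [Finset.prod_mul_distrib, Finset.prod_pow_eq_pow_sum, hd']
  ring

/-- Variant of `eval_smul_of_isHomogeneous` with the scaled point written as `a • v`. -/
theorem eval_smul_of_isHomogeneous' {σ R : Type*} [CommSemiring R] {P : MvPolynomial σ R} {n : ℕ}
    (hP : P.IsHomogeneous n) (a : R) (v : σ → R) :
    eval (a • v) P = a ^ n * eval v P :=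
  eval_smul_of_isHomogeneous hP a v

section
variable {R : Type*} [CommRing R]

theorem subst_C_mul (g : Matrix (Fin 2) (Fin 2) ℤ) (a : R) (P : MvPolynomial (Fin 2) R) :
    subst R g (C a * P) = C a * subst R g P := by
  rw [map_mul, subst_C]

theorem subst_smul (g : Matrix (Fin 2) (Fin 2) ℤ) (a : R) (P : MvPolynomial (Fin 2) R) :
    subst R g (a • P) = a • subst R g P :=
  map_smul _ _ _

theorem subst_sum {ι : Type*} (g : Matrix (Fin 2) (Fin 2) ℤ) (s : Finset ι)
    (P : ι → MvPolynomial (Fin 2) R) :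
    subst R g (∑ i ∈ s, P i) = ∑ i ∈ s, subst R g (P i) :=
  map_sum _ _ _

/-- If `g * h = 1` then `subst h` undoes `subst g`. -/
theorem subst_subst_of_mul_eq_one {g h : Matrix (Fin 2) (Fin 2) ℤ} (hgh : g * h = 1)
    (P : MvPolynomial (Fin 2) R) : subst R h (subst R g P) = P := by
  rw [← subst_mul, hgh, subst_one]

theorem subst_injective_of_mul_eq_one {g h : Matrix (Fin 2) (Fin 2) ℤ} (hgh : g * h = 1) :
    Function.Injective (subst R g) :=
  Function.LeftInverse.injective (subst_subst_of_mul_eq_one hgh)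

/-- `eval_subst` with the new evaluation point written as a vector `![_, _]`. -/
theorem eval_subst_vec (g : Matrix (Fin 2) (Fin 2) ℤ) (v : Fin 2 → R)
    (P : MvPolynomial (Fin 2) R) :
    eval v (subst R g P) =
      eval ![((g 0 0 : ℤ) : R) * v 0 + ((g 0 1 : ℤ) : R) * v 1,
        ((g 1 0 : ℤ) : R) * v 0 + ((g 1 1 : ℤ) : R) * v 1] P := by
  rw [eval_subst]
  congr 2
  funext i
  fin_cases i <;> rfl

end

theorem isIntPoly_C_intCast (n : ℤ) : IsIntPoly (C (n : ℂ)) :=
  ⟨C n, by simp⟩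

theorem isIntPoly_X (i : Fin 2) : IsIntPoly (X i) :=
  ⟨X i, map_X _ _⟩

theorem isIntPoly_one : IsIntPoly 1 :=
  ⟨1, map_one _⟩

theorem isIntPoly_monomial_intCast (s : Fin 2 →₀ ℕ) (n : ℤ) : IsIntPoly (monomial s (n : ℂ)) :=
  ⟨monomial s n, by simp⟩

theorem IsIntPoly.mul {P Q : MvPolynomial (Fin 2) ℂ} (hP : IsIntPoly P) (hQ : IsIntPoly Q) :
    IsIntPoly (P * Q) := by
  obtain ⟨p, rfl⟩ := hP
  obtain ⟨q, rfl⟩ := hQ
  exact ⟨p * q, map_mul _ _ _⟩

theorem IsIntPoly.pow {P : MvPolynomial (Fin 2) ℂ} (hP : IsIntPoly P) (k : ℕ) :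
    IsIntPoly (P ^ k) := by
  obtain ⟨p, rfl⟩ := hP
  exact ⟨p ^ k, map_pow _ _ _⟩

theorem IsIntPoly.exists_coeff_eq {P : MvPolynomial (Fin 2) ℂ} (hP : IsIntPoly P)
    (s : Fin 2 →₀ ℕ) : ∃ n : ℤ, P.coeff s = (n : ℂ) :=
  (isIntPoly_iff P).1 hP s

end Fermat.Agent.S22
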