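import Mathlib
import Fermat.Agent.S22.Poly

/-!
# S22, part 3: cocycles on `Gamma0 N` with values in polynomials, and the integral lattice
-/

set_option autoImplicit false

namespace Fermat.Agent.S22

open MvPolynomial CongruenceSubgroup
open scoped MatrixGroups

/-- The integer matrix underlying an element of `Gamma0 N`. -/
def toMat {N : ℕ} (γ : ↥(Gamma0 N)) : Matrix (Fin 2) (Fin 2) ℤ :=
  ((γ : SL(2, ℤ)) : Matrix (Fin 2) (Fin 2) ℤ)

@[simp] theorem toMat_one {N : ℕ} : toMat (1 : ↥(Gamma0 N)) = 1 := rfl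

@[simp] theorem toMat_mul {N : ℕ} (γ δ : ↥(Gamma0 N)) : toMat (γ * δ) = toMat γ * toMat δ := rfl

theorem toMat_injective {N : ℕ} : Function.Injective (toMat : ↥(Gamma0 N) → _) := by
  intro γ δ h
  exact Subtype.ext (Subtype.ext h)

theorem det_toMat {N : ℕ} (γ : ↥(Gamma0 N)) : (toMat γ).det = 1 := (γ : SL(2, ℤ)).2

/-- The ambient complex vector space: all functions `Gamma0 N → ℂ[X₀, X₁]`. -/
abbrev CocycleSpace (N : ℕ) : Type := ↥(Gamma0 N) → MvPolynomial (Fin 2) ℂ

/-- `c` is a cocycle with values in homogeneous polynomials of degree `m`: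
`c (γ * δ) = subst δ (c γ) + c δ`. -/
def IsCocycle (N m : ℕ) (c : CocycleSpace N) : Prop :=
  (∀ γ δ : ↥(Gamma0 N), c (γ * δ) = subst ℂ (toMat δ) (c γ) + c δ) ∧
    ∀ γ : ↥(Gamma0 N), (c γ).IsHomogeneous m

/-- The complex vector space of cocycles. -/
def cocycles (N m : ℕ) : Submodule ℂ (CocycleSpace N) where
  carrier := {c | IsCocycle N m c}
  add_mem' := by
    rintro c c' ⟨h1, h2⟩ ⟨h1', h2'⟩
    refine ⟨fun γ δ => ?_, fun γ => (h2 γ).add (h2' γ)⟩
    simp only [Pi.add_apply, h1 γ δ, h1' γ δ, map_add]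
    abel
  zero_mem' := ⟨fun γ δ => by simp, fun γ => MvPolynomial.isHomogeneous_zero _ _ _⟩
  smul_mem' := by
    rintro a c ⟨h1, h2⟩
    refine ⟨fun γ δ => ?_, fun γ => ?_⟩
    · simp only [Pi.smul_apply, h1 γ δ, map_smul, smul_add]
    · exact (MvPolynomial.homogeneousSubmodule (Fin 2) ℂ m).smul_mem a (h2 γ)

theorem mem_cocycles {N m : ℕ} {c : CocycleSpace N} : c ∈ cocycles N m ↔ IsCocycle N m c :=
  Iff.rfl

/-- The lattice of integral cocycles. -/
def intCocycles (N m : ℕ) : Submodule ℤ (CocycleSpace N) where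
  carrier := {c | IsCocycle N m c ∧ ∀ γ, IsIntPoly (c γ)}
  add_mem' := by
    rintro c c' ⟨h, hi⟩ ⟨h', hi'⟩
    exact ⟨(cocycles N m).add_mem h h', fun γ => (hi γ).add (hi' γ)⟩
  zero_mem' := ⟨(cocycles N m).zero_mem, fun _ => IsIntPoly.zero⟩
  smul_mem' := by
    rintro n c ⟨h, hi⟩
    exact ⟨zsmul_mem (show c ∈ cocycles N m from h) n, fun γ => (hi γ).zsmul n⟩

theorem mem_intCocycles {N m : ℕ} {c : CocycleSpace N} :
    c ∈ intCocycles N m ↔ IsCocycle N m c ∧ ∀ γ, IsIntPoly (c γ) := Iff.rfl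

theorem IsCocycle.map_one {N m : ℕ} {c : CocycleSpace N} (hc : IsCocycle N m c) : c 1 = 0 := by
  have h := hc.1 1 1
  rw [mul_one, toMat_one, subst_one] at h
  exact left_eq_add.mp h

theorem IsCocycle.map_inv {N m : ℕ} {c : CocycleSpace N} (hc : IsCocycle N m c)
    (γ : ↥(Gamma0 N)) : c γ⁻¹ = - subst ℂ (toMat γ⁻¹) (c γ) := by
  have h := hc.1 γ γ⁻¹
  rw [mul_inv_cancel, hc.map_one] at h
  exact eq_neg_of_add_eq_zero_right h.symm

/-- `Gamma0 N` is finitely generated (Schreier's lemma, since `SL(2, ℤ)` is generated by `S, T`). -/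
theorem gamma0_fg (N : ℕ) [NeZero N] : Group.FG ↥(Gamma0 N) := by
  have : Group.FG SL(2, ℤ) :=
    Group.fg_iff.mpr ⟨{ModularGroup.S, ModularGroup.T}, SpecialLinearGroup.SL2Z_generators,
      Set.toFinite _⟩
  exact Subgroup.fg_of_index_ne_zero (Gamma0 N)

/-- Induction principle: a property of polynomials that is stable under `0`, `+`, `-` and all
substitutions holds for all values of a cocycle as soon as it holds on a generating set. -/
theorem IsCocycle.induction {N m : ℕ} {c : CocycleSpace N} (hc : IsCocycle N m c)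
    (Q : MvPolynomial (Fin 2) ℂ → Prop) (h0 : Q 0) (hadd : ∀ a b, Q a → Q b → Q (a + b))
    (hneg : ∀ a, Q a → Q (-a)) (hsubst : ∀ (g : Matrix (Fin 2) (Fin 2) ℤ) a, Q a → Q (subst ℂ g a))
    (S : Set ↥(Gamma0 N)) (hS : Subgroup.closure S = ⊤) (hQ : ∀ s ∈ S, Q (c s)) :
    ∀ γ, Q (c γ) := by
  intro γ
  have hγ : γ ∈ Subgroup.closure S := by rw [hS]; exact Subgroup.mem_top γ
  induction hγ using Subgroup.closure_induction with
  | mem x hx => exact hQ x hx
  | one => rw [hc.map_one]; exact h0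
  | mul x y _ _ hx hy => rw [hc.1 x y]; exact hadd _ _ (hsubst _ _ hx) hy
  | inv x _ hx => rw [hc.map_inv x]; exact hneg _ (hsubst _ _ hx)

/-- A cocycle vanishing on a generating set vanishes. -/
theorem IsCocycle.eq_zero_of_generators {N m : ℕ} {c : CocycleSpace N} (hc : IsCocycle N m c)
    (S : Set ↥(Gamma0 N)) (hS : Subgroup.closure S = ⊤) (h : ∀ s ∈ S, c s = 0) : c = 0 := by
  funext γ
  refine hc.induction (fun a => a = 0) rfl ?_ ?_ ?_ S hS h γ
  · rintro a b rfl rfl
    exact add_zero 0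
  · rintro a rfl
    exact neg_zero
  · rintro g a rfl
    exact map_zero _

/-- Evaluation of an integral cocycle on a set of elements of `Gamma0 N`, as a `ℤ`-linear map
into a product of copies of the lattice of integral homogeneous polynomials. -/
noncomputable def intCocyclesEval (N m : ℕ) (S : Set ↥(Gamma0 N)) :
    ↥(intCocycles N m) →ₗ[ℤ] (↥S → ↥(intHomog m)) where
  toFun c s := ⟨(c : CocycleSpace N) (s : ↥(Gamma0 N)), c.2.1.2 s, c.2.2 s⟩
  map_add' _ _ := rfl
  map_smul' _ _ := rfl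

theorem intCocyclesEval_injective (N m : ℕ) (S : Set ↥(Gamma0 N))
    (hS : Subgroup.closure S = ⊤) : Function.Injective (intCocyclesEval N m S) := by
  rw [injective_iff_map_eq_zero]
  intro c hc
  apply Subtype.ext
  refine IsCocycle.eq_zero_of_generators c.2.1 S hS (fun s hs => ?_)
  have h1 := congrFun hc ⟨s, hs⟩
  exact congrArg Subtype.val h1

/-- The lattice of integral cocycles is a finitely generated `ℤ`-module. -/
theorem intCocycles_fg (N : ℕ) [NeZero N] (m : ℕ) : (intCocycles N m).FG := by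
  obtain ⟨S, hS, hfin⟩ := Group.fg_iff.mp (gamma0_fg N)
  have : Finite ↥S := hfin.to_subtype
  have : Module.Finite ℤ ↥(intHomog m) := Module.Finite.iff_fg.mpr (intHomog_fg m)
  have : Module.Finite ℤ ↥(intCocycles N m) :=
    Module.Finite.of_injective (intCocyclesEval N m S) (intCocyclesEval_injective N m S hS)
  exact Module.Finite.iff_fg.mp inferInstance

end Fermat.Agent.S22
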