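import Mathlib
import Fermat.Prelude.Thm_CongruenceSubgroup_one_mem_strictPeriods_Gamma0

/-!
# S22, part 5: iterated primitives (vanishing at `i∞`) of cusp-form-like functions
-/

set_option autoImplicit false

namespace Fermat.Agent.S22

open Complex CongruenceSubgroup Filter Topology
open UpperHalfPlane hiding I
open scoped MatrixGroups ModularForm Manifold Real

local notation "𝕢" => Function.Periodic.qParam

/-- "Cusp-form-like" functions on the upper half plane: `1`-periodic, holomorphic, tending to `0`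
at `i∞`, and of moderate growth towards the real axis. -/
structure CuspLike (f : ℍ → ℂ) : Prop where
  periodic : Function.Periodic (f ∘ ofComplex) 1
  holo : MDifferentiable 𝓘(ℂ) 𝓘(ℂ) f
  zero : IsZeroAtImInfty f
  growth : ∃ (C : ℝ) (n : ℕ), ∀ τ : ℍ, ‖f τ‖ ≤ C * max 1 (1 / τ.im ^ n)

/-- Cusp forms of weight `k ≥ 0` for `Gamma0 N` are cusp-form-like. -/
theorem cuspLike_cuspForm {N : ℕ} [NeZero N] {k : ℤ} (hk : 0 ≤ k) (f : CuspForm (Gamma0 N) k) :
    CuspLike (f : ℍ → ℂ) := by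
  have h1 := CongruenceSubgroup.one_mem_strictPeriods_Gamma0 N
  refine ⟨?_, CuspFormClass.holo f, CuspFormClass.zero_at_infty f, ?_⟩
  · simpa using SlashInvariantFormClass.periodic_comp_ofComplex f h1
  · obtain ⟨C, hC⟩ := CuspFormClass.exists_bound f
    refine ⟨C, k.toNat, fun τ => ?_⟩
    have hkR : (0 : ℝ) ≤ (k : ℝ) / 2 := by
      have : (0 : ℝ) ≤ (k : ℝ) := by exact_mod_cast hk
      positivity
    have him : 0 < τ.im := τ.im_pos
    have hpos : 0 < τ.im ^ ((k : ℝ) / 2) := Real.rpow_pos_of_pos him _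
    have hC0 : 0 ≤ C := by
      have h := (norm_nonneg (f τ)).trans (hC τ)
      by_contra hneg
      have hneg' : C < 0 := not_le.mp hneg
      have : C / τ.im ^ ((k : ℝ) / 2) < 0 := div_neg_of_neg_of_pos hneg' hpos
      linarith
    refine (hC τ).trans ?_
    rcases le_total 1 τ.im with h1le | hle1
    · have hge : 1 ≤ τ.im ^ ((k : ℝ) / 2) := Real.one_le_rpow h1le hkR
      calc C / τ.im ^ ((k : ℝ) / 2) ≤ C := div_le_self hC0 hge
        _ = C * 1 := (mul_one C).symm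
        _ ≤ C * max 1 (1 / τ.im ^ k.toNat) :=
          mul_le_mul_of_nonneg_left (le_max_left _ _) hC0
    · have hcast : ((k.toNat : ℕ) : ℝ) = (k : ℝ) := by
        have : ((k.toNat : ℕ) : ℤ) = k := Int.toNat_of_nonneg hk
        exact_mod_cast this
      have hle : τ.im ^ k.toNat ≤ τ.im ^ ((k : ℝ) / 2) := by
        rw [← Real.rpow_natCast]
        apply Real.rpow_le_rpow_of_exponent_ge him hle1
        rw [hcast]
        linarith
      have hpos' : 0 < τ.im ^ k.toNat := pow_pos him _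
      calc C / τ.im ^ ((k : ℝ) / 2) ≤ C / τ.im ^ k.toNat :=
            div_le_div_of_nonneg_left hC0 hpos' hle
        _ = C * (1 / τ.im ^ k.toNat) := by rw [mul_one_div]
        _ ≤ C * max 1 (1 / τ.im ^ k.toNat) :=
          mul_le_mul_of_nonneg_left (le_max_right _ _) hC0

/-- `ψ` is holomorphic on the open unit disc and vanishes at `0`. -/
def DiskVanish (ψ : ℂ → ℂ) : Prop := DifferentiableOn ℂ ψ (Metric.ball 0 1) ∧ ψ 0 = 0

/-- A function holomorphic on the unit disc and vanishing at `0` is `O(‖q‖)` on every closed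
sub-disc. -/
theorem DiskVanish.exists_norm_le {ψ : ℂ → ℂ} (hψ : DiskVanish ψ) {r : ℝ} (hr : r < 1) :
    ∃ B : ℝ, 0 ≤ B ∧ ∀ q : ℂ, ‖q‖ ≤ r → ‖ψ q‖ ≤ B * ‖q‖ := by
  have hball : Metric.ball (0 : ℂ) 1 ∈ 𝓝 (0 : ℂ) := Metric.ball_mem_nhds 0 one_pos
  have hd : DifferentiableOn ℂ (dslope ψ 0) (Metric.ball 0 1) :=
    (differentiableOn_dslope hball).mpr hψ.1
  have hsub : Metric.closedBall (0 : ℂ) r ⊆ Metric.ball 0 1 := Metric.closedBall_subset_ball hr
  obtain ⟨B, hB⟩ := (isCompact_closedBall (0 : ℂ) r).exists_bound_of_continuousOn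
    (hd.continuousOn.mono hsub)
  refine ⟨max B 0, le_max_right _ _, fun q hq => ?_⟩
  have hq' : q ∈ Metric.closedBall (0 : ℂ) r := by simpa using hq
  have h1 : ψ q = q * dslope ψ 0 q := by
    have := sub_smul_dslope ψ 0 q
    simp only [sub_zero, smul_eq_mul, hψ.2] at this
    exact this.symm
  rw [h1, norm_mul, mul_comm]
  exact mul_le_mul_of_nonneg_right ((hB q hq').trans (le_max_left _ _)) (norm_nonneg _)

theorem CuspLike.diskVanish_cuspFunction {f : ℍ → ℂ} (hf : CuspLike f) :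
    DiskVanish (cuspFunction 1 f) :=
  ⟨UpperHalfPlane.differentiableOn_cuspFunction_ball one_pos (by simpa using hf.periodic)
      hf.holo hf.zero.isBoundedAtImInfty,
    UpperHalfPlane.IsZeroAtImInfty.cuspFunction_apply_zero hf.zero one_pos⟩

/-- A cusp-form-like function is its cusp function evaluated at `𝕢 1 τ`. -/
theorem CuspLike.eq_cuspFunction {f : ℍ → ℂ} (hf : CuspLike f) (τ : ℍ) :
    cuspFunction 1 f (𝕢 1 (τ : ℂ)) = f τ :=
  UpperHalfPlane.eq_cuspFunction τ one_ne_zero (by simpa using hf.periodic)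

theorem Primitive.norm_qParam_one (z : ℂ) : ‖𝕢 1 z‖ = Real.exp (-2 * π * z.im) := by
  rw [Function.Periodic.norm_qParam, div_one]

theorem Primitive.norm_qParam_one_le {z : ℂ} (hz : 1 ≤ z.im) : ‖𝕢 1 z‖ ≤ Real.exp (-2 * π) := by
  rw [Primitive.norm_qParam_one, Real.exp_le_exp]
  have := Real.pi_pos
  nlinarith

theorem Primitive.exp_neg_two_pi_lt_one : Real.exp (-2 * π) < 1 := by
  rw [Real.exp_lt_one_iff]
  have := Real.pi_pos
  linarith

/-- A cusp-form-like function decays exponentially at `i∞`. -/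
theorem CuspLike.exp_decay {f : ℍ → ℂ} (hf : CuspLike f) :
    ∃ C : ℝ, ∀ τ : ℍ, 1 ≤ τ.im → ‖f τ‖ ≤ C * Real.exp (-2 * π * τ.im) := by
  obtain ⟨B, -, hB⟩ := hf.diskVanish_cuspFunction.exists_norm_le Primitive.exp_neg_two_pi_lt_one
  refine ⟨B, fun τ hτ => ?_⟩
  have h := hB (𝕢 1 (τ : ℂ)) (Primitive.norm_qParam_one_le (by simpa using hτ))
  rw [hf.eq_cuspFunction, Primitive.norm_qParam_one] at h
  simpa using h

theorem exists_diskPrim (ψ : ℂ → ℂ) : ∃ Ψ : ℂ → ℂ, DiskVanish ψ →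
    (DiskVanish Ψ ∧ ∀ q ∈ Metric.ball (0 : ℂ) 1, HasDerivAt Ψ (dslope ψ 0 q / (2 * π * I)) q) := by
  by_cases hψ : DiskVanish ψ
  · have hball : Metric.ball (0 : ℂ) 1 ∈ 𝓝 (0 : ℂ) := Metric.ball_mem_nhds 0 one_pos
    have hd : DifferentiableOn ℂ (dslope ψ 0) (Metric.ball 0 1) :=
      (differentiableOn_dslope hball).mpr hψ.1
    have hd' : DifferentiableOn ℂ (fun q => dslope ψ 0 q / (2 * π * I)) (Metric.ball 0 1) :=
      hd.div_const _
    obtain ⟨Ψ, hΨ0, hΨ⟩ := (hd'.isExactOn_ball).with_val_at 0 0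
    exact ⟨Ψ, fun _ => ⟨⟨fun q hq => (hΨ q hq).differentiableAt.differentiableWithinAt, hΨ0⟩, hΨ⟩⟩
  · exact ⟨fun _ => 0, fun h => absurd h hψ⟩

/-- The primitive `Ψ` on the unit disc of `q ↦ (ψ q / q) / (2πi)` with `Ψ 0 = 0`
(so that `(Ψ ∘ 𝕢)' = ψ ∘ 𝕢`). -/
noncomputable def diskPrim (ψ : ℂ → ℂ) : ℂ → ℂ := Classical.choose (exists_diskPrim ψ)

theorem diskPrim_spec {ψ : ℂ → ℂ} (hψ : DiskVanish ψ) :
    DiskVanish (diskPrim ψ) ∧
      ∀ q ∈ Metric.ball (0 : ℂ) 1, HasDerivAt (diskPrim ψ) (dslope ψ 0 q / (2 * π * I)) q :=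
  Classical.choose_spec (exists_diskPrim ψ) hψ

/-- The `j`-th iterated primitive (vanishing at `i∞`) of `f`, as a function on `ℂ`
(only meaningful on the upper half plane). -/
noncomputable def iterPrim (f : ℍ → ℂ) (j : ℕ) (z : ℂ) : ℂ :=
  (diskPrim^[j] (cuspFunction 1 f)) (𝕢 1 z)

/-- All iterated disc primitives of the cusp function are holomorphic on the unit disc and vanish
at `0`. -/
theorem CuspLike.diskVanish_iterate {f : ℍ → ℂ} (hf : CuspLike f) (j : ℕ) :
    DiskVanish (diskPrim^[j] (cuspFunction 1 f)) := by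
  induction j with
  | zero => exact hf.diskVanish_cuspFunction
  | succ j ih =>
    rw [Function.iterate_succ_apply']
    exact (diskPrim_spec ih).1

theorem iterPrim_zero {f : ℍ → ℂ} (hf : CuspLike f) (τ : ℍ) : iterPrim f 0 (τ : ℂ) = f τ := by
  simpa [iterPrim] using hf.eq_cuspFunction τ

theorem Primitive.qParam_one_add_one (z : ℂ) : 𝕢 1 (z + 1) = 𝕢 1 z := by
  simp only [Function.Periodic.qParam, ofReal_one, div_one]
  rw [mul_add, mul_one, Complex.exp_add, Complex.exp_two_pi_mul_I, mul_one]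

theorem iterPrim_add_one_periodic (f : ℍ → ℂ) (j : ℕ) (z : ℂ) :
    iterPrim f j (z + 1) = iterPrim f j z := by
  unfold iterPrim
  rw [Primitive.qParam_one_add_one]

theorem Primitive.hasDerivAt_qParam_one (z : ℂ) : HasDerivAt (𝕢 1) (2 * π * I * 𝕢 1 z) z := by
  have h : HasDerivAt (fun z : ℂ => 2 * π * I * z / ((1 : ℝ) : ℂ)) (2 * π * I) z := by
    simpa using ((hasDerivAt_id z).const_mul (2 * π * I)).div_const ((1 : ℝ) : ℂ)
  have h2 : HasDerivAt (𝕢 1) (Complex.exp (2 * π * I * z / ((1 : ℝ) : ℂ)) * (2 * π * I)) z :=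
    h.cexp
  rw [mul_comm]
  exact h2

/-- `iterPrim f (j + 1)` is a primitive of `iterPrim f j` on the upper half plane. -/
theorem hasDerivAt_iterPrim {f : ℍ → ℂ} (hf : CuspLike f) (j : ℕ) {z : ℂ} (hz : 0 < z.im) :
    HasDerivAt (iterPrim f (j + 1)) (iterPrim f j z) z := by
  set ψ := diskPrim^[j] (cuspFunction 1 f) with hψdef
  have hψ : DiskVanish ψ := hf.diskVanish_iterate j
  have hq : 𝕢 1 z ∈ Metric.ball (0 : ℂ) 1 := by
    simpa using Function.Periodic.norm_qParam_lt_one one_pos hz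
  have hq0 : 𝕢 1 z ≠ 0 := Function.Periodic.qParam_ne_zero z
  have h1 := (diskPrim_spec hψ).2 (𝕢 1 z) hq
  have h2 := h1.comp z (Primitive.hasDerivAt_qParam_one z)
  have hfun : iterPrim f (j + 1) = diskPrim ψ ∘ 𝕢 1 := by
    funext w
    simp only [iterPrim, Function.iterate_succ_apply', Function.comp_apply, hψdef]
  have hval : dslope ψ 0 (𝕢 1 z) / (2 * π * I) * (2 * π * I * 𝕢 1 z) = iterPrim f j z := by
    have h3 := sub_smul_dslope ψ 0 (𝕢 1 z)
    simp only [sub_zero, smul_eq_mul, hψ.2] at h3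
    have h4 : (2 * (π : ℂ) * I) ≠ 0 := Complex.two_pi_I_ne_zero
    have : iterPrim f j z = ψ (𝕢 1 z) := rfl
    rw [this, ← h3]
    field_simp
  rw [hfun, ← hval]
  exact h2

/-- If an iterated primitive vanishes identically then so does the function. -/
theorem eq_zero_of_iterPrim_eq_zero {f : ℍ → ℂ} (hf : CuspLike f) (j : ℕ)
    (h : ∀ τ : ℍ, iterPrim f j (τ : ℂ) = 0) : f = 0 := by
  induction j with
  | zero =>
    funext τ
    rw [← iterPrim_zero hf τ]
    exact h τ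
  | succ j ih =>
    apply ih
    intro τ
    have hopen : IsOpen {z : ℂ | 0 < z.im} := isOpen_lt continuous_const Complex.continuous_im
    have hev : iterPrim f (j + 1) =ᶠ[𝓝 (τ : ℂ)] fun _ => (0 : ℂ) := by
      filter_upwards [hopen.mem_nhds (show (τ : ℂ) ∈ {z : ℂ | 0 < z.im} from τ.im_pos)] with w hw
      exact h ⟨w, hw⟩
    have hd0 : HasDerivAt (iterPrim f (j + 1)) 0 (τ : ℂ) :=
      (hasDerivAt_const (τ : ℂ) (0 : ℂ)).congr_of_eventuallyEq hev
    exact (hasDerivAt_iterPrim hf j τ.im_pos).unique hd0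

end Fermat.Agent.S22
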