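import Mathlib
import Fermat.Agent.S22.Poly
import Fermat.Agent.S22.Primitive

/-!
# S22, part 6 (definitions): the polynomial-valued Eichler integral `F_f`, Eichler primitives
-/

set_option autoImplicit false

namespace Fermat.Agent.S22

open Complex CongruenceSubgroup Filter Topology MvPolynomial
open UpperHalfPlane hiding I
open scoped MatrixGroups ModularForm Manifold Real

/-- The polynomial-valued Eichler integral of `f` (for weight `m + 2`):
`F_f(τ) = ∑_{j ≤ m} m!/(m-j)! * f_{j+1}(τ) * X₁^j * (X₀ - τ X₁)^(m-j)`,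
where `f_j = iterPrim f j` is the `j`-th iterated primitive of `f`. -/
noncomputable def eichlerF (f : ℍ → ℂ) (m : ℕ) (τ : ℍ) : MvPolynomial (Fin 2) ℂ :=
  ∑ j ∈ Finset.range (m + 1),
    C ((m.descFactorial j : ℂ) * iterPrim f (j + 1) (τ : ℂ)) * X 1 ^ j *
      (X 0 - C (τ : ℂ) * X 1) ^ (m - j)

/-- `G` is an "Eichler primitive" of `h` (of degree `m`): for every evaluation point `v`,
`τ ↦ eval v (G τ)` is holomorphic with derivative `h τ * (v 0 - τ * v 1) ^ m`. -/
def IsEP (h : ℍ → ℂ) (m : ℕ) (G : ℍ → MvPolynomial (Fin 2) ℂ) : Prop :=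
  ∀ (v : Fin 2 → ℂ) (τ : ℍ),
    HasDerivAt (fun z : ℂ => eval v (G (ofComplex z))) (h τ * (v 0 - (τ : ℂ) * v 1) ^ m) (τ : ℂ)

/-- `G` tends to `0` along every vertical ray (after evaluation at any point). -/
def DecaysVert (G : ℍ → MvPolynomial (Fin 2) ℂ) : Prop :=
  ∀ (v : Fin 2 → ℂ) (x : ℝ),
    Tendsto (fun t : ℝ => eval v (G (ofComplex ((x : ℂ) + (t : ℂ) * I)))) atTop (𝓝 0)

end Fermat.Agent.S22
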