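import Mathlib
import Fermat.Agent.S22.EPDefs

/-!
# S22, part 6 (iii): uniqueness and linearity of Eichler primitives
-/

set_option autoImplicit false

namespace Fermat.Agent.S22

open Complex CongruenceSubgroup Filter Topology MvPolynomial
open UpperHalfPlane hiding I
open scoped MatrixGroups ModularForm Manifold Real

/-- Two Eichler primitives of the same function differ by a constant polynomial. -/
theorem IsEP.sub_const {h : ℍ → ℂ} {m : ℕ} {G₁ G₂ : ℍ → MvPolynomial (Fin 2) ℂ}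
    (h₁ : IsEP h m G₁) (h₂ : IsEP h m G₂) (τ τ' : ℍ) : G₁ τ - G₂ τ = G₁ τ' - G₂ τ' := by
  apply MvPolynomial.funext
  intro v
  have hderiv : ∀ z ∈ {z : ℂ | 0 < z.im},
      HasDerivAt (fun z : ℂ => eval v (G₁ (ofComplex z)) - eval v (G₂ (ofComplex z))) 0 z := by
    intro z hz
    have e1 := h₁ v ⟨z, hz⟩
    have e2 := h₂ v ⟨z, hz⟩
    have e3 := e1.sub e2
    rw [sub_self] at e3
    exact e3
  have hconst := IsOpen.is_const_of_deriv_eq_zero
    (f := fun z : ℂ => eval v (G₁ (ofComplex z)) - eval v (G₂ (ofComplex z)))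
    (s := {z : ℂ | 0 < z.im}) isOpen_upperHalfPlaneSet
    (convex_halfSpace_im_gt 0).isPreconnected
    (fun z hz => (hderiv z hz).differentiableAt.differentiableWithinAt)
    (fun z hz => (hderiv z hz).deriv) (x := (τ : ℂ)) (y := (τ' : ℂ)) τ.im_pos τ'.im_pos
  simp only [ofComplex_apply] at hconst
  rw [map_sub, map_sub]
  exact hconst

/-- Uniqueness of decaying Eichler primitives. -/
theorem IsEP.eq_of_decaysVert {h : ℍ → ℂ} {m : ℕ} {G₁ G₂ : ℍ → MvPolynomial (Fin 2) ℂ}
    (h₁ : IsEP h m G₁) (h₂ : IsEP h m G₂) (d₁ : DecaysVert G₁) (d₂ : DecaysVert G₂) :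
    G₁ = G₂ := by
  funext τ
  rw [← sub_eq_zero]
  apply MvPolynomial.funext
  intro v
  rw [map_zero]
  have hlim : Tendsto (fun t : ℝ => eval v (G₁ (ofComplex (((0 : ℝ) : ℂ) + (t : ℂ) * I))) -
      eval v (G₂ (ofComplex (((0 : ℝ) : ℂ) + (t : ℂ) * I)))) atTop (𝓝 (0 - 0)) :=
    (d₁ v 0).sub (d₂ v 0)
  rw [sub_zero] at hlim
  have hev : (fun _ : ℝ => eval v (G₁ τ - G₂ τ)) =ᶠ[atTop]
      (fun t : ℝ => eval v (G₁ (ofComplex (((0 : ℝ) : ℂ) + (t : ℂ) * I))) -
        eval v (G₂ (ofComplex (((0 : ℝ) : ℂ) + (t : ℂ) * I)))) := by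
    filter_upwards [Filter.eventually_gt_atTop (0 : ℝ)] with t ht
    have him : 0 < (((0 : ℝ) : ℂ) + (t : ℂ) * I).im := by simpa using ht
    rw [IsEP.sub_const h₁ h₂ τ ⟨_, him⟩, map_sub, ofComplex_apply_of_im_pos him]
  exact tendsto_nhds_unique (tendsto_const_nhds.congr' hev) hlim

theorem IsEP.add {h h' : ℍ → ℂ} {m : ℕ} {G G' : ℍ → MvPolynomial (Fin 2) ℂ}
    (hG : IsEP h m G) (hG' : IsEP h' m G') : IsEP (h + h') m (G + G') := by
  intro v τ
  have e := (hG v τ).add (hG' v τ)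
  simp only [Pi.add_apply, map_add, add_mul]
  exact e

theorem IsEP.smul {h : ℍ → ℂ} {m : ℕ} {G : ℍ → MvPolynomial (Fin 2) ℂ} (a : ℂ)
    (hG : IsEP h m G) : IsEP (a • h) m (a • G) := by
  intro v τ
  have e := (hG v τ).const_mul a
  simp only [Pi.smul_apply, smul_eval, smul_eq_mul, mul_assoc]
  exact e

theorem IsEP.sum {ι : Type*} (s : Finset ι) {h : ι → ℍ → ℂ} {m : ℕ}
    {G : ι → ℍ → MvPolynomial (Fin 2) ℂ} (hG : ∀ i ∈ s, IsEP (h i) m (G i)) :
    IsEP (∑ i ∈ s, h i) m (∑ i ∈ s, G i) := by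
  classical
  induction s using Finset.induction_on with
  | empty =>
    intro v τ
    simp only [Finset.sum_empty, Pi.zero_apply, map_zero, zero_mul]
    exact hasDerivAt_const _ _
  | insert i s his ih =>
    rw [Finset.sum_insert his, Finset.sum_insert his]
    exact (hG i (Finset.mem_insert_self i s)).add
      (ih fun j hj => hG j (Finset.mem_insert_of_mem hj))

theorem DecaysVert.add {G G' : ℍ → MvPolynomial (Fin 2) ℂ} (hG : DecaysVert G)
    (hG' : DecaysVert G') : DecaysVert (G + G') := by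
  intro v x
  have e := (hG v x).add (hG' v x)
  simp only [Pi.add_apply, map_add]
  rw [add_zero] at e
  exact e

theorem DecaysVert.smul {G : ℍ → MvPolynomial (Fin 2) ℂ} (a : ℂ) (hG : DecaysVert G) :
    DecaysVert (a • G) := by
  intro v x
  have e := (hG v x).const_mul a
  simp only [Pi.smul_apply, smul_eval]
  rw [mul_zero] at e
  exact e

theorem DecaysVert.sum {ι : Type*} (s : Finset ι) {G : ι → ℍ → MvPolynomial (Fin 2) ℂ}
    (hG : ∀ i ∈ s, DecaysVert (G i)) : DecaysVert (∑ i ∈ s, G i) := by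
  classical
  induction s using Finset.induction_on with
  | empty =>
    intro v x
    simp only [Finset.sum_empty, Pi.zero_apply, map_zero]
    exact tendsto_const_nhds
  | insert i s his ih =>
    rw [Finset.sum_insert his]
    exact (hG i (Finset.mem_insert_self i s)).add
      (ih fun j hj => hG j (Finset.mem_insert_of_mem hj))

end Fermat.Agent.S22
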