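import Mathlib
import Fermat.Agent.S22.EPDefs

/-!
# S22, part 6 (iv): transformation of Eichler primitives under integer matrices
-/

set_option autoImplicit false

namespace Fermat.Agent.S22

open Complex CongruenceSubgroup Filter Topology MvPolynomial
open UpperHalfPlane hiding I
open scoped MatrixGroups ModularForm Manifold Real

/-- The entries of `g` are those of `M` (as real numbers). -/
theorem epSlash_entry {g : GL (Fin 2) ℝ} {M : Matrix (Fin 2) (Fin 2) ℤ}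
    (hgM : (g : Matrix (Fin 2) (Fin 2) ℝ) = M.map (Int.cast : ℤ → ℝ)) (i j : Fin 2) :
    (g : Matrix (Fin 2) (Fin 2) ℝ) i j = ((M i j : ℤ) : ℝ) := by
  rw [hgM, Matrix.map_apply]

/-- The determinant of `g` is that of `M` (as a real number). -/
theorem epSlash_det {g : GL (Fin 2) ℝ} {M : Matrix (Fin 2) (Fin 2) ℤ}
    (hgM : (g : Matrix (Fin 2) (Fin 2) ℝ) = M.map (Int.cast : ℤ → ℝ)) :
    (g : Matrix (Fin 2) (Fin 2) ℝ).det = ((M.det : ℤ) : ℝ) := by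
  rw [Matrix.det_fin_two, Matrix.det_fin_two, epSlash_entry hgM, epSlash_entry hgM,
    epSlash_entry hgM, epSlash_entry hgM]
  push_cast
  ring

theorem epSlash_det_pos {g : GL (Fin 2) ℝ} {M : Matrix (Fin 2) (Fin 2) ℤ}
    (hgM : (g : Matrix (Fin 2) (Fin 2) ℝ) = M.map (Int.cast : ℤ → ℝ)) (hdet : 0 < M.det) :
    0 < (g : Matrix (Fin 2) (Fin 2) ℝ).det := by
  rw [epSlash_det hgM]
  exact_mod_cast hdet

theorem epSlash_det_pos' {g : GL (Fin 2) ℝ} {M : Matrix (Fin 2) (Fin 2) ℤ}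
    (hgM : (g : Matrix (Fin 2) (Fin 2) ℝ) = M.map (Int.cast : ℤ → ℝ)) (hdet : 0 < M.det) :
    0 < g.det.val := by
  rw [Matrix.GeneralLinearGroup.val_det_apply]
  exact epSlash_det_pos hgM hdet

/-- The Möbius action of `g` in coordinates. -/
theorem epSlash_coe_smul {g : GL (Fin 2) ℝ} {M : Matrix (Fin 2) (Fin 2) ℤ}
    (hgM : (g : Matrix (Fin 2) (Fin 2) ℝ) = M.map (Int.cast : ℤ → ℝ)) (hdet : 0 < M.det)
    (τ : ℍ) :
    ((g • τ : ℍ) : ℂ) =
      (((M 0 0 : ℤ) : ℂ) * (τ : ℂ) + ((M 0 1 : ℤ) : ℂ)) /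
        (((M 1 0 : ℤ) : ℂ) * (τ : ℂ) + ((M 1 1 : ℤ) : ℂ)) := by
  rw [coe_smul_of_det_pos (epSlash_det_pos' hgM hdet), num, denom, epSlash_entry hgM,
    epSlash_entry hgM, epSlash_entry hgM, epSlash_entry hgM]
  push_cast
  rfl

theorem epSlash_denom {g : GL (Fin 2) ℝ} {M : Matrix (Fin 2) (Fin 2) ℤ}
    (hgM : (g : Matrix (Fin 2) (Fin 2) ℝ) = M.map (Int.cast : ℤ → ℝ)) (z : ℂ) :
    denom g z = ((M 1 0 : ℤ) : ℂ) * z + ((M 1 1 : ℤ) : ℂ) := by
  rw [denom, epSlash_entry hgM, epSlash_entry hgM]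
  push_cast
  rfl

/-- The Möbius action of `g` at a point of the upper half plane given as a complex number. -/
theorem epSlash_coe_smul_ofComplex {g : GL (Fin 2) ℝ} {M : Matrix (Fin 2) (Fin 2) ℤ}
    (hgM : (g : Matrix (Fin 2) (Fin 2) ℝ) = M.map (Int.cast : ℤ → ℝ)) (hdet : 0 < M.det)
    {z : ℂ} (hz : 0 < z.im) :
    ((g • ofComplex z : ℍ) : ℂ) =
      (((M 0 0 : ℤ) : ℂ) * z + ((M 0 1 : ℤ) : ℂ)) /
        (((M 1 0 : ℤ) : ℂ) * z + ((M 1 1 : ℤ) : ℂ)) := by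
  rw [epSlash_coe_smul hgM hdet, ofComplex_apply_of_im_pos hz, coe_mk]

/-- The algebraic identity behind `IsEP.slash`. -/
theorem epSlash_alg (a b c d t x y H D : ℂ) (m : ℕ) (hD : D ≠ 0) (hDdef : D = c * t + d) :
    H * (a * d - b * c) ^ (m + 1) * (D ^ (m + 2))⁻¹ * (x - t * y) ^ m =
      H * ((a * x + b * y) - (a * t + b) / D * (c * x + d * y)) ^ m *
        ((a * d - b * c) / D ^ 2) := by
  have h1 : (a * x + b * y) - (a * t + b) / D * (c * x + d * y) =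
      (a * d - b * c) * (x - t * y) / D := by
    field_simp
    rw [hDdef]
    ring
  rw [h1, div_pow, mul_pow]
  field_simp
  ring

/-- Transformation of Eichler primitives under an integer matrix `M` of positive determinant
(with `g` the corresponding element of `GL (Fin 2) ℝ`): if `G` is an Eichler primitive of `h`
then `τ ↦ subst M (G (g • τ))` is an Eichler primitive of `h ∣[m + 2] g`. -/
theorem IsEP.slash {h : ℍ → ℂ} {m : ℕ} {G : ℍ → MvPolynomial (Fin 2) ℂ} (hG : IsEP h m G)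
    (g : GL (Fin 2) ℝ) (M : Matrix (Fin 2) (Fin 2) ℤ)
    (hgM : (g : Matrix (Fin 2) (Fin 2) ℝ) = M.map (Int.cast : ℤ → ℝ)) (hdet : 0 < M.det) :
    IsEP (h ∣[(m : ℤ) + 2] g) m (fun τ => subst ℂ M (G (g • τ))) := by
  intro v τ
  have hdetg : 0 < (g : Matrix (Fin 2) (Fin 2) ℝ).det := epSlash_det_pos hgM hdet
  have hdetg' : 0 < g.det.val := epSlash_det_pos' hgM hdet
  -- the transformed evaluation point
  set w : Fin 2 → ℂ := fun i => ((M i 0 : ℤ) : ℂ) * v 0 + ((M i 1 : ℤ) : ℂ) * v 1 with hw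
  -- the derivative of the Möbius transformation
  have hμ : HasDerivAt (fun z : ℂ => ((g • ofComplex z : ℍ) : ℂ))
      (((g : Matrix (Fin 2) (Fin 2) ℝ).det : ℂ) / denom g τ ^ 2) (τ : ℂ) :=
    (hasStrictDerivAt_smul hdetg τ).hasDerivAt
  -- the derivative of the primitive at `g • τ`
  have hΨ : HasDerivAt (fun z : ℂ => eval w (G (ofComplex z)))
      (h (g • τ) * (w 0 - ((g • τ : ℍ) : ℂ) * w 1) ^ m) ((g • τ : ℍ) : ℂ) := hG w (g • τ)
  have hcomp := HasDerivAt.comp_of_eq (τ : ℂ) hΨ hμ (by rw [ofComplex_apply])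
  have hfun : (fun z : ℂ => eval v ((fun τ => subst ℂ M (G (g • τ))) (ofComplex z))) =
      (fun z : ℂ => eval w (G (ofComplex z))) ∘ (fun z : ℂ => ((g • ofComplex z : ℍ) : ℂ)) := by
    funext z
    simp only [Function.comp_apply, ofComplex_apply]
    rw [eval_subst]
  rw [hfun]
  refine hcomp.congr_deriv ?_
  -- the algebraic identity
  have hD : ((M 1 0 : ℤ) : ℂ) * (τ : ℂ) + ((M 1 1 : ℤ) : ℂ) ≠ 0 := by
    rw [← epSlash_denom hgM]
    exact denom_ne_zero g τ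
  have hdetC : (((g : Matrix (Fin 2) (Fin 2) ℝ).det : ℝ) : ℂ) =
      ((M 0 0 : ℤ) : ℂ) * ((M 1 1 : ℤ) : ℂ) - ((M 0 1 : ℤ) : ℂ) * ((M 1 0 : ℤ) : ℂ) := by
    rw [epSlash_det hgM, Matrix.det_fin_two]
    push_cast
    ring
  have e1 : (m : ℤ) + 2 - 1 = ((m + 1 : ℕ) : ℤ) := by push_cast; ring
  have e2 : (m : ℤ) + 2 = ((m + 2 : ℕ) : ℤ) := by push_cast; ring
  rw [ModularForm.slash_apply, UpperHalfPlane.σ, if_pos hdetg', ContinuousAlgEquiv.refl_apply,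
    abs_of_pos hdetg', Matrix.GeneralLinearGroup.val_det_apply, hdetC, epSlash_denom hgM,
    epSlash_coe_smul hgM hdet, e1, zpow_natCast, e2, zpow_neg, zpow_natCast]
  exact (epSlash_alg _ _ _ _ _ _ _ _ _ m hD rfl).symm

/-- Upper triangular matrices with positive diagonal preserve decay along vertical rays. -/
theorem DecaysVert.slash_upper {G : ℍ → MvPolynomial (Fin 2) ℂ} (hG : DecaysVert G)
    (g : GL (Fin 2) ℝ) (M : Matrix (Fin 2) (Fin 2) ℤ)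
    (hgM : (g : Matrix (Fin 2) (Fin 2) ℝ) = M.map (Int.cast : ℤ → ℝ))
    (hM : M 1 0 = 0 ∧ 0 < M 0 0 ∧ 0 < M 1 1) :
    DecaysVert (fun τ => subst ℂ M (G (g • τ))) := by
  obtain ⟨hc, ha, hd⟩ := hM
  have hdet : 0 < M.det := by
    rw [Matrix.det_fin_two, hc, mul_zero, sub_zero]
    exact mul_pos ha hd
  intro v x
  have haR : (0 : ℝ) < ((M 0 0 : ℤ) : ℝ) := by exact_mod_cast ha
  have hdR : (0 : ℝ) < ((M 1 1 : ℤ) : ℝ) := by exact_mod_cast hd
  have hdC : (((M 1 1 : ℤ) : ℝ) : ℂ) ≠ 0 := by exact_mod_cast hdR.ne'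
  have hr : (0 : ℝ) < ((M 0 0 : ℤ) : ℝ) / ((M 1 1 : ℤ) : ℝ) := div_pos haR hdR
  -- the transformed evaluation point
  set w : Fin 2 → ℂ := fun i => ((M i 0 : ℤ) : ℂ) * v 0 + ((M i 1 : ℤ) : ℂ) * v 1 with hw
  have hlim := (hG w ((((M 0 0 : ℤ) : ℝ) * x + ((M 0 1 : ℤ) : ℝ)) / ((M 1 1 : ℤ) : ℝ))).comp
    (tendsto_id.const_mul_atTop hr)
  refine hlim.congr' ?_
  filter_upwards [eventually_gt_atTop (0 : ℝ)] with t ht
  simp only [Function.comp_apply, id_eq]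
  rw [eval_subst]
  congr 2
  have hz : 0 < ((x : ℂ) + (t : ℂ) * I).im := by simpa using ht
  have hz' : 0 < (((((((M 0 0 : ℤ) : ℝ) * x + ((M 0 1 : ℤ) : ℝ)) / ((M 1 1 : ℤ) : ℝ) : ℝ) : ℂ)) +
      (((((M 0 0 : ℤ) : ℝ) / ((M 1 1 : ℤ) : ℝ) * t : ℝ) : ℂ)) * I).im := by
    simpa using mul_pos hr ht
  apply UpperHalfPlane.ext
  rw [epSlash_coe_smul_ofComplex hgM hdet hz, ofComplex_apply_of_im_pos hz', coe_mk, hc]
  push_cast
  field_simp
  ring

end Fermat.Agent.S22
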