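import Mathlib
import Fermat.Agent.S22.Primitive

/-!
# S22, part 5 (growth): the iterated primitives of a cusp-form-like function are cusp-form-like
-/

set_option autoImplicit false

namespace Fermat.Agent.S22

open Complex CongruenceSubgroup Filter Topology
open UpperHalfPlane hiding I
open scoped MatrixGroups ModularForm Manifold Real

local notation "𝕢" => Function.Periodic.qParam

/-- All iterates `diskPrim^[j] (cuspFunction 1 f)` are holomorphic on the unit disc and vanish
at `0`. -/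
theorem diskVanish_iterate_aux {f : ℍ → ℂ} (hf : CuspLike f) (j : ℕ) :
    DiskVanish (diskPrim^[j] (cuspFunction 1 f)) := by
  induction j with
  | zero => simpa using hf.diskVanish_cuspFunction
  | succ j ih =>
    rw [Function.iterate_succ_apply']
    exact (diskPrim_spec ih).1

/-- `1`-periodicity of the (junk-extended) iterated primitive. -/
theorem iterPrim_periodic_aux (f : ℍ → ℂ) (j : ℕ) :
    Function.Periodic ((fun τ : ℍ => iterPrim f j (τ : ℂ)) ∘ ofComplex) 1 := by
  intro w
  by_cases hw : 0 < w.im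
  · have hw1 : 0 < (w + 1).im := by simpa using hw
    simp only [Function.comp_apply, ofComplex_apply_of_im_pos hw1, ofComplex_apply_of_im_pos hw]
    exact iterPrim_add_one_periodic f j w
  · have hw0 : w.im ≤ 0 := not_lt.mp hw
    have hw1 : (w + 1).im ≤ 0 := by simpa using hw0
    simp only [Function.comp_apply, ofComplex_apply_of_im_nonpos hw1,
      ofComplex_apply_of_im_nonpos hw0]

/-- The iterated primitives are holomorphic on the upper half plane (as functions on `ℂ`). -/
theorem iterPrim_differentiableAt_aux {f : ℍ → ℂ} (hf : CuspLike f) (j : ℕ) {z : ℂ}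
    (hz : 0 < z.im) : DifferentiableAt ℂ (iterPrim f j) z := by
  have hψ := (diskVanish_iterate_aux hf j).1
  have hq : 𝕢 1 z ∈ Metric.ball (0 : ℂ) 1 := by
    rw [mem_ball_zero_iff]
    exact Function.Periodic.norm_qParam_lt_one one_pos hz
  have h1 : DifferentiableAt ℂ (diskPrim^[j] (cuspFunction 1 f)) (𝕢 1 z) :=
    (hψ _ hq).differentiableAt (Metric.isOpen_ball.mem_nhds hq)
  have h2 : DifferentiableAt ℂ (𝕢 1) z := Function.Periodic.differentiable_qParam z
  exact h1.comp z h2

/-- The iterated primitives are holomorphic on the upper half plane. -/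
theorem iterPrim_holo_aux {f : ℍ → ℂ} (hf : CuspLike f) (j : ℕ) :
    MDifferentiable 𝓘(ℂ) 𝓘(ℂ) (fun τ : ℍ => iterPrim f j (τ : ℂ)) := by
  rw [UpperHalfPlane.mdifferentiable_iff]
  have h : DifferentiableOn ℂ (iterPrim f j) {z : ℂ | 0 < z.im} := fun z hz =>
    (iterPrim_differentiableAt_aux hf j hz).differentiableWithinAt
  refine h.congr ?_
  intro z hz
  have hz' : 0 < z.im := hz
  simp only [Function.comp_apply, ofComplex_apply_of_im_pos hz', UpperHalfPlane.coe_mk]

/-- The iterated primitives tend to `0` at `i∞`. -/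
theorem iterPrim_zero_aux {f : ℍ → ℂ} (hf : CuspLike f) (j : ℕ) :
    IsZeroAtImInfty (fun τ : ℍ => iterPrim f j (τ : ℂ)) := by
  obtain ⟨hψ, hψ0⟩ := diskVanish_iterate_aux hf j
  have h0 : (0 : ℂ) ∈ Metric.ball (0 : ℂ) 1 := Metric.mem_ball_self one_pos
  have hc : ContinuousAt (diskPrim^[j] (cuspFunction 1 f)) 0 :=
    ((hψ _ h0).differentiableAt (Metric.isOpen_ball.mem_nhds h0)).continuousAt
  have ht : Tendsto (diskPrim^[j] (cuspFunction 1 f)) (𝓝 0) (𝓝 0) := by
    have := hc.tendsto
    rwa [hψ0] at this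
  exact ht.comp (UpperHalfPlane.qParam_tendsto_atImInfty one_pos)

/-- The iterated primitives are bounded on `{z | 1 ≤ z.im}`. -/
theorem iterPrim_bdd_aux {f : ℍ → ℂ} (hf : CuspLike f) (j : ℕ) :
    ∃ B : ℝ, ∀ z : ℂ, 1 ≤ z.im → ‖iterPrim f j z‖ ≤ B := by
  have hψ := (diskVanish_iterate_aux hf j).1
  set r : ℝ := Real.exp (-2 * π) with hr
  have hr1 : r < 1 := by
    rw [hr, Real.exp_lt_one_iff]
    have := Real.pi_pos
    linarith
  have hsub : Metric.closedBall (0 : ℂ) r ⊆ Metric.ball (0 : ℂ) 1 :=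
    Metric.closedBall_subset_ball hr1
  have hcont : ContinuousOn (diskPrim^[j] (cuspFunction 1 f)) (Metric.closedBall (0 : ℂ) r) :=
    hψ.continuousOn.mono hsub
  obtain ⟨B, hB⟩ := (isCompact_closedBall (0 : ℂ) r).exists_bound_of_continuousOn hcont
  refine ⟨B, fun z hz => ?_⟩
  refine hB _ ?_
  rw [mem_closedBall_zero_iff, Function.Periodic.norm_qParam, hr, Real.exp_le_exp]
  have := Real.pi_pos
  rw [div_one]
  nlinarith

/-- The growth step: if `G' = F` on the upper half plane, `F` has moderate growth and `G` is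
bounded on `{z | 1 ≤ z.im}`, then `G` has moderate growth (mean value inequality on the vertical
segment from `z` to `z.re + i`). -/
theorem growth_step_aux {F G : ℂ → ℂ} (hFG : ∀ z : ℂ, 0 < z.im → HasDerivAt G (F z) z)
    {C : ℝ} {n : ℕ} (hF : ∀ z : ℂ, 0 < z.im → ‖F z‖ ≤ C * max 1 (1 / z.im ^ n))
    {B : ℝ} (hB : ∀ z : ℂ, 1 ≤ z.im → ‖G z‖ ≤ B) :
    ∀ z : ℂ, 0 < z.im → ‖G z‖ ≤ (B + C) * max 1 (1 / z.im ^ n) := by
  have hC0 : 0 ≤ C := by
    have h := hF Complex.I (by simp)
    have h1 : max (1 : ℝ) (1 / Complex.I.im ^ n) = 1 := by simp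
    rw [h1, mul_one] at h
    exact le_trans (norm_nonneg _) h
  have hB0 : 0 ≤ B := le_trans (norm_nonneg _) (hB Complex.I (by simp))
  intro z hz
  have hmax : (1 : ℝ) ≤ max 1 (1 / z.im ^ n) := le_max_left _ _
  rcases le_or_gt 1 z.im with h1 | h1
  · calc ‖G z‖ ≤ B := hB z h1
      _ ≤ B + C := by linarith
      _ = (B + C) * 1 := (mul_one _).symm
      _ ≤ (B + C) * max 1 (1 / z.im ^ n) :=
        mul_le_mul_of_nonneg_left hmax (by linarith)
  · -- `y = z.im < 1`
    set y : ℝ := z.im with hy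
    set w : ℂ := ⟨z.re, 1⟩ with hw
    have hyn : 0 < y ^ n := pow_pos hz n
    have hyn1 : y ^ n ≤ 1 := pow_le_one₀ hz.le h1.le
    have hinv : 1 ≤ 1 / y ^ n := by
      rw [le_div_iff₀ hyn]
      linarith
    -- points of the segment have imaginary part `≥ y`
    have hseg : ∀ u ∈ segment ℝ z w, y ≤ u.im := by
      rintro u ⟨a, b, ha, hb, hab, rfl⟩
      have : (a • z + b • w).im = a * y + b * 1 := by
        simp [hw, hy]
      rw [this]
      have hb1 : b * y ≤ b * 1 := mul_le_mul_of_nonneg_left h1.le hb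
      have : y = a * y + b * y := by rw [← add_mul, hab, one_mul]
      linarith
    have hderiv : ∀ u ∈ segment ℝ z w, HasDerivWithinAt G (F u) (segment ℝ z w) u :=
      fun u hu => (hFG u (lt_of_lt_of_le hz (hseg u hu))).hasDerivWithinAt
    have hbound : ∀ u ∈ segment ℝ z w, ‖F u‖ ≤ C * (1 / y ^ n) := by
      intro u hu
      have hu1 : y ≤ u.im := hseg u hu
      have hu0 : 0 < u.im := lt_of_lt_of_le hz hu1
      have hle : 1 / u.im ^ n ≤ 1 / y ^ n :=
        one_div_le_one_div_of_le hyn (pow_le_pow_left₀ hz.le hu1 n)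
      calc ‖F u‖ ≤ C * max 1 (1 / u.im ^ n) := hF u hu0
        _ ≤ C * (1 / y ^ n) := mul_le_mul_of_nonneg_left (max_le hinv hle) hC0
    have hmv : ‖G z - G w‖ ≤ C * (1 / y ^ n) * ‖z - w‖ :=
      Convex.norm_image_sub_le_of_norm_hasDerivWithin_le hderiv hbound (convex_segment z w)
        (right_mem_segment ℝ z w) (left_mem_segment ℝ z w)
    have hzw : ‖z - w‖ ≤ 1 := by
      have h2 : z - w = ((y - 1 : ℝ) : ℂ) * Complex.I := by
        apply Complex.ext <;> simp [hw, hy]
      rw [h2, norm_mul, Complex.norm_I, mul_one, Complex.norm_real, Real.norm_eq_abs,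
        abs_le]
      constructor <;> linarith
    have hGw : ‖G w‖ ≤ B := hB w (by simp [hw])
    have hCy : 0 ≤ C * (1 / y ^ n) := mul_nonneg hC0 (by positivity)
    have h3 : ‖G z‖ ≤ ‖G z - G w‖ + ‖G w‖ := by
      have := norm_add_le (G z - G w) (G w)
      simpa using this
    calc ‖G z‖ ≤ ‖G z - G w‖ + ‖G w‖ := h3
      _ ≤ C * (1 / y ^ n) * 1 + B := by
        have := mul_le_mul_of_nonneg_left hzw hCy
        linarith
      _ = B * 1 + C * (1 / y ^ n) := by ring
      _ ≤ B * (1 / y ^ n) + C * (1 / y ^ n) := by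
        have := mul_le_mul_of_nonneg_left hinv hB0
        linarith
      _ = (B + C) * (1 / y ^ n) := by ring
      _ ≤ (B + C) * max 1 (1 / y ^ n) :=
        mul_le_mul_of_nonneg_left (le_max_right _ _) (by linarith)

/-- Moderate growth of all iterated primitives. -/
theorem iterPrim_growth_aux {f : ℍ → ℂ} (hf : CuspLike f) (j : ℕ) :
    ∃ (C : ℝ) (n : ℕ), ∀ z : ℂ, 0 < z.im → ‖iterPrim f j z‖ ≤ C * max 1 (1 / z.im ^ n) := by
  induction j with
  | zero =>
    obtain ⟨C, n, h⟩ := hf.growth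
    refine ⟨C, n, fun z hz => ?_⟩
    have := h ⟨z, hz⟩
    rw [← iterPrim_zero hf ⟨z, hz⟩] at this
    exact this
  | succ j ih =>
    obtain ⟨C, n, h⟩ := ih
    obtain ⟨B, hB⟩ := iterPrim_bdd_aux hf (j + 1)
    exact ⟨B + C, n, growth_step_aux (fun z hz => hasDerivAt_iterPrim hf j hz) h hB⟩

/-- The iterated primitives are again cusp-form-like (auxiliary form). -/
theorem cuspLike_iterPrim_aux {f : ℍ → ℂ} (hf : CuspLike f) (j : ℕ) :
    CuspLike (fun τ : ℍ => iterPrim f j (τ : ℂ)) where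
  periodic := iterPrim_periodic_aux f j
  holo := iterPrim_holo_aux hf j
  zero := iterPrim_zero_aux hf j
  growth := by
    obtain ⟨C, n, h⟩ := iterPrim_growth_aux hf j
    exact ⟨C, n, fun τ => h (τ : ℂ) τ.im_pos⟩

/-- The iterated primitives are again cusp-form-like. -/
theorem CuspLike.iterPrim {f : ℍ → ℂ} (hf : CuspLike f) (j : ℕ) :
    CuspLike (fun τ : ℍ => iterPrim f j (τ : ℂ)) :=
  cuspLike_iterPrim_aux hf j

end Fermat.Agent.S22
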