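import Mathlib
import Fermat.Agent.S22.EPDefs
import Fermat.Agent.S22.IterPrimCuspLike

/-!
# S22, part 6 (i), (ii): the Eichler integral `F_f` is a decaying Eichler primitive of `f`
-/

set_option autoImplicit false

namespace Fermat.Agent.S22

open Complex CongruenceSubgroup Filter Topology MvPolynomial
open UpperHalfPlane hiding I
open scoped MatrixGroups ModularForm Manifold Real

theorem eichlerF_isHomogeneous (f : ℍ → ℂ) (m : ℕ) (τ : ℍ) : (eichlerF f m τ).IsHomogeneous m := by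
  unfold eichlerF
  refine IsHomogeneous.sum _ _ _ (fun j hj => ?_)
  have hj' : j ≤ m := Nat.lt_succ_iff.mp (Finset.mem_range.mp hj)
  have h1 : (C ((m.descFactorial j : ℂ) * iterPrim f (j + 1) (τ : ℂ)) :
      MvPolynomial (Fin 2) ℂ).IsHomogeneous 0 := isHomogeneous_C _ _
  have h2 : ((X 1 : MvPolynomial (Fin 2) ℂ) ^ j).IsHomogeneous j := isHomogeneous_X_pow _ _
  have h3 : (X 0 - C (τ : ℂ) * X 1 : MvPolynomial (Fin 2) ℂ).IsHomogeneous 1 :=
    (isHomogeneous_X _ _).sub (isHomogeneous_C_mul_X _ _)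
  have h4 := h3.pow (m - j)
  have h5 := (h1.mul h2).mul h4
  have e : 0 + j + 1 * (m - j) = m := by omega
  rw [e] at h5
  exact h5

/-- Evaluating `F_f(τ)` at the point `(τ, 1)` gives `m! * f_{m+1}(τ)`. -/
theorem eval_eichlerF_diag (f : ℍ → ℂ) (m : ℕ) (τ : ℍ) :
    eval ![(τ : ℂ), 1] (eichlerF f m τ) = (m.factorial : ℂ) * iterPrim f (m + 1) (τ : ℂ) := by
  unfold eichlerF
  rw [map_sum, Finset.sum_eq_single m]
  · simp [Nat.descFactorial_self]
  · intro j hj hjm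
    have hne : m - j ≠ 0 := by
      have := Finset.mem_range.mp hj
      omega
    simp [hne]
  · intro h
    simp at h

/-- The evaluation of `F_f(τ)` at a point `v`, as an explicit finite sum. -/
theorem eval_eichlerF_eq_sum (f : ℍ → ℂ) (m : ℕ) (v : Fin 2 → ℂ) (τ : ℍ) :
    eval v (eichlerF f m τ) = ∑ j ∈ Finset.range (m + 1),
      (m.descFactorial j : ℂ) * iterPrim f (j + 1) (τ : ℂ) * v 1 ^ j *
        (v 0 - (τ : ℂ) * v 1) ^ (m - j) := by
  simp [eichlerF, map_sum]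

/-- Derivative of one summand of `F_f`, in telescoping form. -/
theorem eichlerF_aux_hasDerivAt_term {g : ℕ → ℂ → ℂ} (x y : ℂ) (m j : ℕ) {z : ℂ}
    (hg : HasDerivAt (g (j + 1)) (g j z) z) :
    HasDerivAt
      (fun w : ℂ => (m.descFactorial j : ℂ) * g (j + 1) w * y ^ j * (x - w * y) ^ (m - j))
      ((m.descFactorial j : ℂ) * g j z * y ^ j * (x - z * y) ^ (m - j) -
        (m.descFactorial (j + 1) : ℂ) * g (j + 1) z * y ^ (j + 1) * (x - z * y) ^ (m - (j + 1)))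
      z := by
  have h1 : HasDerivAt (fun w : ℂ => x - w * y) (-y) z := by
    simpa using ((hasDerivAt_id z).mul_const y).const_sub x
  have h2 := h1.fun_pow (m - j)
  have h3 := ((hg.const_mul (m.descFactorial j : ℂ)).mul_const (y ^ j)).fun_mul h2
  have e : m - (j + 1) = m - j - 1 := rfl
  refine h3.congr_deriv ?_
  rw [Nat.descFactorial_succ, e]
  push_cast
  ring

/-- The telescoping derivative computation for the sum defining `F_f`. -/
theorem eichlerF_aux_hasDerivAt_sum {g : ℕ → ℂ → ℂ} (x y : ℂ) (m : ℕ) {z : ℂ}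
    (hg : ∀ j, HasDerivAt (g (j + 1)) (g j z) z) :
    HasDerivAt
      (fun w : ℂ => ∑ j ∈ Finset.range (m + 1),
        (m.descFactorial j : ℂ) * g (j + 1) w * y ^ j * (x - w * y) ^ (m - j))
      (g 0 z * (x - z * y) ^ m) z := by
  have h := HasDerivAt.fun_sum (u := Finset.range (m + 1))
    (fun j _ => eichlerF_aux_hasDerivAt_term (g := g) x y m j (hg j))
  refine h.congr_deriv ?_
  rw [Finset.sum_range_sub' (fun j => (m.descFactorial j : ℂ) * g j z * y ^ j *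
    (x - z * y) ^ (m - j))]
  simp

theorem isEP_eichlerF {f : ℍ → ℂ} (hf : CuspLike f) (m : ℕ) : IsEP f m (eichlerF f m) := by
  intro v τ
  have hτ : 0 < (τ : ℂ).im := τ.im_pos
  have hmain := eichlerF_aux_hasDerivAt_sum (g := iterPrim f) (v 0) (v 1) m (z := (τ : ℂ))
    (fun j => hasDerivAt_iterPrim hf j hτ)
  rw [iterPrim_zero hf τ] at hmain
  refine hmain.congr_of_eventuallyEq ?_
  have hopen : IsOpen {z : ℂ | 0 < z.im} := isOpen_lt continuous_const Complex.continuous_im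
  filter_upwards [hopen.mem_nhds hτ] with z hz
  rw [eval_eichlerF_eq_sum, UpperHalfPlane.ofComplex_apply_of_im_pos hz]

/-- `t ^ n * exp (-2 π t) → 0` as `t → ∞`. -/
theorem eichlerF_aux_tendsto_pow_mul_exp (n : ℕ) :
    Tendsto (fun t : ℝ => t ^ n * Real.exp (-2 * π * t)) atTop (𝓝 0) := by
  refine squeeze_zero' ?_ ?_ (Real.tendsto_pow_mul_exp_neg_atTop_nhds_zero n)
  · filter_upwards [eventually_ge_atTop (0 : ℝ)] with t ht
    positivity
  · filter_upwards [eventually_ge_atTop (0 : ℝ)] with t ht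
    have h2π : (1 : ℝ) ≤ 2 * π := by nlinarith [Real.pi_gt_three]
    have hle : -2 * π * t ≤ -t := by nlinarith
    exact mul_le_mul_of_nonneg_left (Real.exp_le_exp.mpr hle) (pow_nonneg ht n)

/-- One summand of `F_f` tends to `0` along a vertical ray, given exponential decay of the
(iterated primitive) factor. -/
theorem eichlerF_aux_tendsto_term {g : ℂ → ℂ} {C : ℝ}
    (hg : ∀ τ : ℍ, 1 ≤ τ.im → ‖g (τ : ℂ)‖ ≤ C * Real.exp (-2 * π * τ.im))
    (c a b : ℂ) (x : ℝ) (n : ℕ) :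
    Tendsto (fun t : ℝ => c * g ((x : ℂ) + (t : ℂ) * I) * (a - ((x : ℂ) + (t : ℂ) * I) * b) ^ n)
      atTop (𝓝 0) := by
  obtain ⟨K, hK⟩ : ∃ K : ℝ, K = ‖a‖ + (|x| + 1) * ‖b‖ := ⟨_, rfl⟩
  have hK0 : 0 ≤ K := by rw [hK]; positivity
  have hlim : Tendsto (fun t : ℝ => (‖c‖ * C * K ^ n) * (t ^ n * Real.exp (-2 * π * t)))
      atTop (𝓝 0) := by
    simpa using (eichlerF_aux_tendsto_pow_mul_exp n).const_mul (‖c‖ * C * K ^ n)
  refine squeeze_zero_norm' ?_ hlim
  filter_upwards [eventually_ge_atTop (1 : ℝ)] with t ht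
  have ht0 : 0 < t := by linarith
  have him : 0 < ((x : ℂ) + (t : ℂ) * I).im := by simpa using ht0
  have h1 := hg ⟨(x : ℂ) + (t : ℂ) * I, him⟩ (by simpa [UpperHalfPlane.im] using ht)
  have h1' : ‖g ((x : ℂ) + (t : ℂ) * I)‖ ≤ C * Real.exp (-2 * π * t) := by
    simpa [UpperHalfPlane.im] using h1
  have h2 : ‖a - ((x : ℂ) + (t : ℂ) * I) * b‖ ≤ K * t := by
    have h3 : ‖(x : ℂ) + (t : ℂ) * I‖ ≤ |x| + t := by
      calc ‖(x : ℂ) + (t : ℂ) * I‖ ≤ ‖(x : ℂ)‖ + ‖(t : ℂ) * I‖ := norm_add_le _ _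
        _ = |x| + t := by simp [abs_of_pos ht0]
    have ha : 0 ≤ ‖a‖ := norm_nonneg _
    have hb : 0 ≤ ‖b‖ := norm_nonneg _
    have hx : 0 ≤ |x| := abs_nonneg _
    calc ‖a - ((x : ℂ) + (t : ℂ) * I) * b‖ ≤ ‖a‖ + ‖((x : ℂ) + (t : ℂ) * I) * b‖ :=
          norm_sub_le _ _
      _ = ‖a‖ + ‖(x : ℂ) + (t : ℂ) * I‖ * ‖b‖ := by rw [norm_mul]
      _ ≤ ‖a‖ + (|x| + t) * ‖b‖ := by gcongr
      _ ≤ K * t := by
          rw [hK]
          nlinarith [mul_nonneg ha (sub_nonneg.mpr ht),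
            mul_nonneg (mul_nonneg hx hb) (sub_nonneg.mpr ht)]
  have hC : 0 ≤ C * Real.exp (-2 * π * t) := (norm_nonneg _).trans h1'
  calc ‖c * g ((x : ℂ) + (t : ℂ) * I) * (a - ((x : ℂ) + (t : ℂ) * I) * b) ^ n‖
      = ‖c‖ * ‖g ((x : ℂ) + (t : ℂ) * I)‖ * ‖a - ((x : ℂ) + (t : ℂ) * I) * b‖ ^ n := by
        rw [norm_mul, norm_mul, norm_pow]
    _ ≤ ‖c‖ * (C * Real.exp (-2 * π * t)) * (K * t) ^ n :=
        mul_le_mul (mul_le_mul_of_nonneg_left h1' (norm_nonneg c))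
          (pow_le_pow_left₀ (norm_nonneg _) h2 n) (by positivity)
          (mul_nonneg (norm_nonneg c) hC)
    _ = (‖c‖ * C * K ^ n) * (t ^ n * Real.exp (-2 * π * t)) := by
        rw [mul_pow]
        ring

theorem decaysVert_eichlerF {f : ℍ → ℂ} (hf : CuspLike f) (m : ℕ) : DecaysVert (eichlerF f m) := by
  intro v x
  have hsum : Tendsto (fun t : ℝ => ∑ j ∈ Finset.range (m + 1),
      ((m.descFactorial j : ℂ) * v 1 ^ j) * iterPrim f (j + 1) ((x : ℂ) + (t : ℂ) * I) *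
        (v 0 - ((x : ℂ) + (t : ℂ) * I) * v 1) ^ (m - j)) atTop (𝓝 0) := by
    have h := tendsto_finsetSum (Finset.range (m + 1)) (fun j _ => by
      obtain ⟨C, hC⟩ := (hf.iterPrim (j + 1)).exp_decay
      exact eichlerF_aux_tendsto_term (g := iterPrim f (j + 1)) hC
        ((m.descFactorial j : ℂ) * v 1 ^ j) (v 0) (v 1) x (m - j))
    simpa using h
  refine hsum.congr' ?_
  filter_upwards [eventually_gt_atTop (0 : ℝ)] with t ht
  have him : 0 < ((x : ℂ) + (t : ℂ) * I).im := by simpa using ht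
  rw [eval_eichlerF_eq_sum, UpperHalfPlane.ofComplex_apply_of_im_pos him]
  refine Finset.sum_congr rfl (fun j _ => ?_)
  have hcoe : ((⟨(x : ℂ) + (t : ℂ) * I, him⟩ : ℍ) : ℂ) = (x : ℂ) + (t : ℂ) * I := rfl
  rw [hcoe]
  ring

end Fermat.Agent.S22
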