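import Mathlib
import Fermat.Agent.S22.EichlerF
import Fermat.Agent.S22.EP
import Fermat.Agent.S22.EPSlash

/-!
# S22, part 6: linearity of `f ↦ F_f` and the Eichler integral of a Hecke sum
-/

set_option autoImplicit false

namespace Fermat.Agent.S22

open Complex CongruenceSubgroup Filter Topology MvPolynomial
open UpperHalfPlane hiding I
open scoped MatrixGroups ModularForm Manifold Real

theorem eichlerF_add {f g : ℍ → ℂ} (hf : CuspLike f) (hg : CuspLike g) (hfg : CuspLike (f + g))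
    (m : ℕ) : eichlerF (f + g) m = eichlerF f m + eichlerF g m :=
  IsEP.eq_of_decaysVert (isEP_eichlerF hfg m) ((isEP_eichlerF hf m).add (isEP_eichlerF hg m))
    (decaysVert_eichlerF hfg m) ((decaysVert_eichlerF hf m).add (decaysVert_eichlerF hg m))

theorem eichlerF_smul {f : ℍ → ℂ} (a : ℂ) (hf : CuspLike f) (haf : CuspLike (a • f)) (m : ℕ) :
    eichlerF (a • f) m = a • eichlerF f m :=
  IsEP.eq_of_decaysVert (isEP_eichlerF haf m) ((isEP_eichlerF hf m).smul a)
    (decaysVert_eichlerF haf m) ((decaysVert_eichlerF hf m).smul a)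

/-- The Eichler integral of a "Hecke sum" `f' = ∑ j, f ∣[m + 2] g j` over upper triangular
integer matrices. -/
theorem eichlerF_hecke {J : Type} [Fintype J] {f f' : ℍ → ℂ} (hf : CuspLike f)
    (hf' : CuspLike f') (m : ℕ) (g : J → GL (Fin 2) ℝ) (M : J → Matrix (Fin 2) (Fin 2) ℤ)
    (hgM : ∀ j, (g j : Matrix (Fin 2) (Fin 2) ℝ) = (M j).map (Int.cast : ℤ → ℝ))
    (hM : ∀ j, M j 1 0 = 0 ∧ 0 < M j 0 0 ∧ 0 < M j 1 1)
    (hff' : f' = ∑ j, f ∣[(m : ℤ) + 2] g j) (τ : ℍ) :
    eichlerF f' m τ = ∑ j, subst ℂ (M j) (eichlerF f m (g j • τ)) := by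
  have hdet : ∀ j, 0 < (M j).det := by
    intro j
    rw [Matrix.det_fin_two, (hM j).1, mul_zero, sub_zero]
    exact mul_pos (hM j).2.1 (hM j).2.2
  have hEP : IsEP f' m
      (∑ j, fun τ : ℍ => subst ℂ (M j) (eichlerF f m (g j • τ))) := by
    rw [hff']
    exact IsEP.sum Finset.univ
      (fun j _ => (isEP_eichlerF hf m).slash (g j) (M j) (hgM j) (hdet j))
  have hD : DecaysVert (∑ j, fun τ : ℍ => subst ℂ (M j) (eichlerF f m (g j • τ))) :=
    DecaysVert.sum Finset.univ
      (fun j _ => (decaysVert_eichlerF hf m).slash_upper (g j) (M j) (hgM j) (hM j))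
  have key := IsEP.eq_of_decaysVert (isEP_eichlerF hf' m) hEP (decaysVert_eichlerF hf' m) hD
  rw [key, Finset.sum_apply]

end Fermat.Agent.S22
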