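import Mathlib
import Fermat.Agent.S22.Cocycle
import Fermat.Agent.S22.EichlerIntegral

/-!
# S22, part 6 (v): the cocycle attached to a cusp form, and the Eichler–Shimura map
-/

set_option autoImplicit false

namespace Fermat.Agent.S22

open Complex CongruenceSubgroup Filter Topology MvPolynomial
open UpperHalfPlane hiding I
open scoped MatrixGroups ModularForm Manifold Real

/-- The cocycle attached to `f` (with base point `i∞`, computed at the point `i`):
`γ ↦ subst γ (F_f (γ • i)) - F_f i`. -/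
noncomputable def cocycleOfFun (N m : ℕ) (f : ℍ → ℂ) : CocycleSpace N :=
  fun γ => subst ℂ (toMat γ) (eichlerF f m ((γ : SL(2, ℤ)) • UpperHalfPlane.I)) -
    eichlerF f m UpperHalfPlane.I

variable {N : ℕ} [NeZero N] {m : ℕ}

/-- Cusp forms of weight `m + 2` are cusp-form-like. -/
theorem cuspLike_cuspForm_add_two (f : CuspForm (Gamma0 N) ((m : ℤ) + 2)) : CuspLike (f : ℍ → ℂ) :=
  cuspLike_cuspForm (by positivity) f

/-- The function `τ ↦ subst γ (F_f (γ • τ))` is again an Eichler primitive of `f`. -/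
theorem isEP_subst_eichlerF_gamma0 (f : CuspForm (Gamma0 N) ((m : ℤ) + 2)) (γ : ↥(Gamma0 N)) :
    IsEP (f : ℍ → ℂ) m
      (fun τ => subst ℂ (toMat γ) (eichlerF f m ((γ : SL(2, ℤ)) • τ))) := by
  have hf : CuspLike (f : ℍ → ℂ) := cuspLike_cuspForm_add_two f
  have h1 : IsEP (f : ℍ → ℂ) m (eichlerF f m) := isEP_eichlerF hf m
  have hgM : ((Matrix.SpecialLinearGroup.mapGL ℝ (γ : SL(2, ℤ)) : GL (Fin 2) ℝ) :
      Matrix (Fin 2) (Fin 2) ℝ) = (toMat γ).map (Int.cast : ℤ → ℝ) := by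
    ext i j
    rfl
  have hdet : 0 < (toMat γ).det := by
    rw [det_toMat]; exact one_pos
  have h2 := IsEP.slash h1 (Matrix.SpecialLinearGroup.mapGL ℝ (γ : SL(2, ℤ))) (toMat γ) hgM hdet
  have hmem : (Matrix.SpecialLinearGroup.mapGL ℝ (γ : SL(2, ℤ)) : GL (Fin 2) ℝ) ∈
      ((Gamma0 N : Subgroup SL(2, ℤ)) : Subgroup (GL (Fin 2) ℝ)) :=
    Subgroup.mem_map.mpr ⟨(γ : SL(2, ℤ)), γ.2, rfl⟩
  have hinv : (f : ℍ → ℂ) ∣[(m : ℤ) + 2] (Matrix.SpecialLinearGroup.mapGL ℝ (γ : SL(2, ℤ))) =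
      (f : ℍ → ℂ) :=
    SlashInvariantFormClass.slash_action_eq f _ hmem
  rw [hinv] at h2
  exact h2

/-- The defining expression of the cocycle is independent of the point `τ`. -/
theorem cocycleOfFun_eq (f : CuspForm (Gamma0 N) ((m : ℤ) + 2)) (γ : ↥(Gamma0 N)) (τ : ℍ) :
    subst ℂ (toMat γ) (eichlerF f m ((γ : SL(2, ℤ)) • τ)) - eichlerF f m τ =
      cocycleOfFun N m f γ := by
  have hf : CuspLike (f : ℍ → ℂ) := cuspLike_cuspForm_add_two f
  have h1 : IsEP (f : ℍ → ℂ) m (eichlerF f m) := isEP_eichlerF hf m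
  exact IsEP.sub_const (isEP_subst_eichlerF_gamma0 f γ) h1 τ UpperHalfPlane.I

theorem isCocycle_cocycleOfFun (f : CuspForm (Gamma0 N) ((m : ℤ) + 2)) :
    IsCocycle N m (cocycleOfFun N m f) := by
  refine ⟨fun γ δ => ?_, fun γ => ?_⟩
  · have h1 := cocycleOfFun_eq f γ (((δ : ↥(Gamma0 N)) : SL(2, ℤ)) • UpperHalfPlane.I)
    have h2 := cocycleOfFun_eq f δ UpperHalfPlane.I
    have h3 : subst ℂ (toMat γ) (eichlerF f m
        ((γ : SL(2, ℤ)) • ((δ : SL(2, ℤ)) • UpperHalfPlane.I))) =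
        cocycleOfFun N m f γ + eichlerF f m ((δ : SL(2, ℤ)) • UpperHalfPlane.I) := by
      rw [← h1]; ring
    have h4 : cocycleOfFun N m f (γ * δ) =
        subst ℂ (toMat δ) (subst ℂ (toMat γ) (eichlerF f m
          ((γ : SL(2, ℤ)) • ((δ : SL(2, ℤ)) • UpperHalfPlane.I)))) -
          eichlerF f m UpperHalfPlane.I := by
      rw [← subst_mul, ← toMat_mul, ← mul_smul]
      rfl
    rw [h4, h3, map_add, ← h2]
    ring
  · exact ((subst_isHomogeneous (toMat γ) (eichlerF_isHomogeneous f m _)).sub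
      (eichlerF_isHomogeneous f m _))

theorem cocycleOfFun_add (f g : CuspForm (Gamma0 N) ((m : ℤ) + 2)) :
    cocycleOfFun N m (⇑(f + g)) = cocycleOfFun N m f + cocycleOfFun N m g := by
  have hf : CuspLike (f : ℍ → ℂ) := cuspLike_cuspForm_add_two f
  have hg : CuspLike (g : ℍ → ℂ) := cuspLike_cuspForm_add_two g
  have hfg : CuspLike ((f : ℍ → ℂ) + (g : ℍ → ℂ)) := by
    have := cuspLike_cuspForm_add_two (f + g)
    exact this
  have hcoe : (⇑(f + g) : ℍ → ℂ) = (f : ℍ → ℂ) + (g : ℍ → ℂ) := rfl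
  funext γ
  simp only [cocycleOfFun, hcoe, eichlerF_add hf hg hfg m, Pi.add_apply, map_add]
  ring

theorem cocycleOfFun_smul (a : ℂ) (f : CuspForm (Gamma0 N) ((m : ℤ) + 2)) :
    cocycleOfFun N m (⇑(a • f)) = a • cocycleOfFun N m f := by
  have hf : CuspLike (f : ℍ → ℂ) := cuspLike_cuspForm_add_two f
  have haf : CuspLike (a • (f : ℍ → ℂ)) := by
    have := cuspLike_cuspForm_add_two (a • f)
    exact this
  have hcoe : (⇑(a • f) : ℍ → ℂ) = a • (f : ℍ → ℂ) := rfl
  funext γ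
  simp only [cocycleOfFun, hcoe, eichlerF_smul a hf haf m, Pi.smul_apply, map_smul, smul_sub]

variable (N m) in
/-- The Eichler–Shimura map `f ↦ c_f` from cusp forms of weight `m + 2` to cocycles. -/
noncomputable def eichlerShimura :
    CuspForm (Gamma0 N) ((m : ℤ) + 2) →ₗ[ℂ] CocycleSpace N where
  toFun f := cocycleOfFun N m f
  map_add' := cocycleOfFun_add
  map_smul' := cocycleOfFun_smul

theorem eichlerShimura_apply (f : CuspForm (Gamma0 N) ((m : ℤ) + 2)) :
    eichlerShimura N m f = cocycleOfFun N m f := rfl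

theorem eichlerShimura_mem_cocycles (f : CuspForm (Gamma0 N) ((m : ℤ) + 2)) :
    eichlerShimura N m f ∈ cocycles N m :=
  isCocycle_cocycleOfFun f

end Fermat.Agent.S22
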