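import Mathlib
import Fermat.Agent.S22.Cocycle

/-!
# S22, part 4: abstract Hecke data and the Hecke operator on cocycles
-/

set_option autoImplicit false

namespace Fermat.Agent.S22

open MvPolynomial CongruenceSubgroup
open scoped MatrixGroups

/-- An abstract Hecke datum for `Gamma0 N`: a finite family of integer matrices `α j` of positive
determinant, representing distinct cosets `Gamma0 N * α j`, whose union is stable under right
multiplication by `Gamma0 N`. -/
structure HeckeDatum (N : ℕ) where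
  /-- the index type -/
  J : Type
  /-- the index type is finite -/
  [fintypeJ : Fintype J]
  /-- the coset representatives -/
  α : J → Matrix (Fin 2) (Fin 2) ℤ
  det_pos : ∀ j, 0 < (α j).det
  exists_decomp : ∀ (γ : ↥(Gamma0 N)) (j : J),
    ∃ (j' : J) (t : ↥(Gamma0 N)), α j * toMat γ = toMat t * α j'
  distinct : ∀ (j j' : J) (t : ↥(Gamma0 N)), α j = toMat t * α j' → j = j'

/-- Right cancellation of an integer `2 × 2` matrix with nonzero determinant. -/
theorem heckeCocycle_mul_right_cancel {A B M : Matrix (Fin 2) (Fin 2) ℤ}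
    (hM : M.det ≠ 0) (h : A * M = B * M) : A = B := by
  have h' : A * (M * M.adjugate) = B * (M * M.adjugate) := by
    rw [← Matrix.mul_assoc, ← Matrix.mul_assoc, h]
  rw [Matrix.mul_adjugate, Matrix.mul_smul, Matrix.mul_smul, Matrix.mul_one, Matrix.mul_one] at h'
  ext i k
  have h'' := congrFun (congrFun h' i) k
  simp only [Matrix.smul_apply, smul_eq_mul] at h''
  exact mul_left_cancel₀ hM h''

namespace HeckeDatum

attribute [instance] HeckeDatum.fintypeJ

variable {N : ℕ} (D : HeckeDatum N)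

/-- the permutation of the index set induced by `γ` -/
noncomputable def σ (γ : ↥(Gamma0 N)) (j : D.J) : D.J :=
  Classical.choose (D.exists_decomp γ j)

/-- the element `t` of `Gamma0 N` with `α j * γ = t * α (σ γ j)` -/
noncomputable def t (γ : ↥(Gamma0 N)) (j : D.J) : ↥(Gamma0 N) :=
  Classical.choose (Classical.choose_spec (D.exists_decomp γ j))

theorem rel (γ : ↥(Gamma0 N)) (j : D.J) :
    D.α j * toMat γ = toMat (D.t γ j) * D.α (D.σ γ j) :=
  Classical.choose_spec (Classical.choose_spec (D.exists_decomp γ j))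

theorem unique {γ : ↥(Gamma0 N)} {j j' : D.J} {t' : ↥(Gamma0 N)}
    (h : D.α j * toMat γ = toMat t' * D.α j') : j' = D.σ γ j ∧ t' = D.t γ j := by
  have h1 : toMat t' * D.α j' = toMat (D.t γ j) * D.α (D.σ γ j) := h.symm.trans (D.rel γ j)
  have h2 : D.α j' = toMat (t'⁻¹ * D.t γ j) * D.α (D.σ γ j) := by
    rw [toMat_mul, Matrix.mul_assoc, ← h1, ← Matrix.mul_assoc, ← toMat_mul, inv_mul_cancel,
      toMat_one, Matrix.one_mul]
  have hj : j' = D.σ γ j := D.distinct _ _ _ h2
  refine ⟨hj, ?_⟩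
  subst hj
  have hdet : (D.α (D.σ γ j)).det ≠ 0 := (D.det_pos _).ne'
  exact toMat_injective (heckeCocycle_mul_right_cancel hdet h1)

theorem σ_bijective (γ : ↥(Gamma0 N)) : Function.Bijective (D.σ γ) := by
  rw [← Finite.injective_iff_bijective]
  intro j₁ j₂ h
  have h1 := D.rel γ j₁
  have h2 := D.rel γ j₂
  rw [h] at h1
  apply D.distinct j₁ j₂ (D.t γ j₁ * (D.t γ j₂)⁻¹)
  have hdet : (toMat γ).det ≠ 0 := by
    rw [det_toMat]
    exact one_ne_zero
  apply heckeCocycle_mul_right_cancel hdet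
  rw [h1, Matrix.mul_assoc, h2, ← Matrix.mul_assoc, ← toMat_mul, inv_mul_cancel_right]

/-- The relation defining `σ (γ * δ)` and `t (γ * δ)`. -/
theorem heckeCocycle_rel_mul (γ δ : ↥(Gamma0 N)) (j : D.J) :
    D.α j * toMat (γ * δ) =
      toMat (D.t γ j * D.t δ (D.σ γ j)) * D.α (D.σ δ (D.σ γ j)) := by
  rw [toMat_mul, toMat_mul, ← Matrix.mul_assoc, D.rel γ j, Matrix.mul_assoc,
    D.rel δ (D.σ γ j), Matrix.mul_assoc]

theorem σ_mul (γ δ : ↥(Gamma0 N)) (j : D.J) : D.σ (γ * δ) j = D.σ δ (D.σ γ j) :=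
  (D.unique (D.heckeCocycle_rel_mul γ δ j)).1.symm

theorem t_mul (γ δ : ↥(Gamma0 N)) (j : D.J) :
    D.t (γ * δ) j = D.t γ j * D.t δ (D.σ γ j) :=
  (D.unique (D.heckeCocycle_rel_mul γ δ j)).2.symm

/-- The Hecke operator on functions `Gamma0 N → ℂ[X₀, X₁]` attached to a Hecke datum. -/
noncomputable def heckeOp : Module.End ℂ (CocycleSpace N) where
  toFun c := fun γ => ∑ j, subst ℂ (D.α (D.σ γ j)) (c (D.t γ j))
  map_add' c c' := by
    funext γ
    simp only [Pi.add_apply, map_add, Finset.sum_add_distrib]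
  map_smul' a c := by
    funext γ
    simp only [Pi.smul_apply, map_smul, Finset.smul_sum, RingHom.id_apply]

theorem heckeOp_apply (c : CocycleSpace N) (γ : ↥(Gamma0 N)) :
    D.heckeOp c γ = ∑ j, subst ℂ (D.α (D.σ γ j)) (c (D.t γ j)) := rfl

/-- The Hecke operator maps cocycles to cocycles. -/
theorem isCocycle_heckeOp {m : ℕ} {c : CocycleSpace N} (hc : IsCocycle N m c) :
    IsCocycle N m (D.heckeOp c) := by
  obtain ⟨h1, h2⟩ := hc
  refine ⟨fun γ δ => ?_, fun γ => ?_⟩
  · rw [heckeOp_apply, heckeOp_apply, heckeOp_apply, map_sum,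
      ← (D.σ_bijective γ).sum_comp (fun j' => subst ℂ (D.α (D.σ δ j')) (c (D.t δ j'))),
      ← Finset.sum_add_distrib]
    refine Finset.sum_congr rfl fun j _ => ?_
    have key : subst ℂ (D.α (D.σ δ (D.σ γ j)))
          (subst ℂ (toMat (D.t δ (D.σ γ j))) (c (D.t γ j))) =
        subst ℂ (toMat δ) (subst ℂ (D.α (D.σ γ j)) (c (D.t γ j))) := by
      rw [← subst_mul, ← subst_mul, D.rel δ (D.σ γ j)]
    rw [D.σ_mul, D.t_mul, h1, map_add, key]
  · rw [heckeOp_apply]
    exact MvPolynomial.IsHomogeneous.sum _ _ _ (fun j _ => subst_isHomogeneous _ (h2 _))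

/-- The Hecke operator preserves the lattice of integral cocycles. -/
theorem heckeOp_mem_intCocycles {m : ℕ} {c : CocycleSpace N} (hc : c ∈ intCocycles N m) :
    D.heckeOp c ∈ intCocycles N m := by
  rw [mem_intCocycles] at hc ⊢
  refine ⟨D.isCocycle_heckeOp hc.1, fun γ => ?_⟩
  rw [heckeOp_apply]
  exact IsIntPoly.sum _ (fun j _ => (hc.2 _).subst _)

/-- All `α j` are upper triangular with positive diagonal entries. -/
def IsUpper : Prop := ∀ j, D.α j 1 0 = 0 ∧ 0 < D.α j 0 0 ∧ 0 < D.α j 1 1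

end HeckeDatum

end Fermat.Agent.S22
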