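import Mathlib
import Fermat.Agent.S22.HeckeCocycle

/-!
# S22, part 4 (concrete): the Hecke data for `U_p` (`p ∣ N`) and `T_p` (`p ∤ N`)
-/

set_option autoImplicit false
set_option linter.unusedSectionVars false

namespace Fermat.Agent.S22

open MvPolynomial CongruenceSubgroup
open scoped MatrixGroups

/-- The matrix `[[1, j], [0, p]]`. -/
def alphaU (p : ℕ) (j : ℕ) : Matrix (Fin 2) (Fin 2) ℤ := !![1, (j : ℤ); 0, (p : ℤ)]

/-- The matrix `[[p, 0], [0, 1]]`. -/
def alphaInf (p : ℕ) : Matrix (Fin 2) (Fin 2) ℤ := !![(p : ℤ), 0; 0, 1]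

/-- The coset representatives for `T_p`: `none ↦ [[p, 0], [0, 1]]`, `some j ↦ [[1, j], [0, p]]`. -/
def alphaT (p : ℕ) : Option (Fin p) → Matrix (Fin 2) (Fin 2) ℤ
  | none => alphaInf p
  | some j => alphaU p (j : ℕ)

theorem det_alphaU (p j : ℕ) : (alphaU p j).det = p := by
  simp [alphaU, Matrix.det_fin_two]

theorem det_alphaInf (p : ℕ) : (alphaInf p).det = p := by
  simp [alphaInf, Matrix.det_fin_two]

theorem det_alphaT (p : ℕ) (j : Option (Fin p)) : (alphaT p j).det = p := by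
  cases j with
  | none => exact det_alphaInf p
  | some j => exact det_alphaU p j

/-! ### Auxiliary lemmas (explicit `2 × 2` integer matrices, elements of `Gamma0 N`) -/

namespace HeckeDataAux

/-- Two explicit `2 × 2` integer matrices are equal iff their entries are. -/
theorem mat_eq_iff (a b c d a' b' c' d' : ℤ) :
    (!![a, b; c, d] : Matrix (Fin 2) (Fin 2) ℤ) = !![a', b'; c', d'] ↔
      a = a' ∧ b = b' ∧ c = c' ∧ d = d' := by
  constructor
  · intro h
    have h00 := congrFun (congrFun h 0) 0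
    have h01 := congrFun (congrFun h 0) 1
    have h10 := congrFun (congrFun h 1) 0
    have h11 := congrFun (congrFun h 1) 1
    simp at h00 h01 h10 h11
    exact ⟨h00, h01, h10, h11⟩
  · rintro ⟨rfl, rfl, rfl, rfl⟩
    rfl

/-- Product of two explicit `2 × 2` integer matrices. -/
theorem mat_mul (a b c d a' b' c' d' : ℤ) :
    (!![a, b; c, d] : Matrix (Fin 2) (Fin 2) ℤ) * !![a', b'; c', d'] =
      !![a * a' + b * c', a * b' + b * d'; c * a' + d * c', c * b' + d * d'] := by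
  rw [Matrix.mul_fin_two]

/-- Build an element of `Gamma0 N` from its entries. -/
theorem exists_gamma0 (N : ℕ) (a b c d : ℤ) (hdet : a * d - b * c = 1) (hc : (N : ℤ) ∣ c) :
    ∃ t : ↥(Gamma0 N), toMat t = !![a, b; c, d] := by
  refine ⟨⟨⟨!![a, b; c, d], by rw [Matrix.det_fin_two_of]; exact hdet⟩, ?_⟩, rfl⟩
  rw [Gamma0_mem]
  have h : ((c : ℤ) : ZMod N) = 0 := (ZMod.intCast_zmod_eq_zero_iff_dvd c N).2 hc
  simpa using h

/-- Read off the entries of an element of `Gamma0 N`. -/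
theorem entries (N : ℕ) (γ : ↥(Gamma0 N)) :
    ∃ a b c d : ℤ, toMat γ = !![a, b; c, d] ∧ a * d - b * c = 1 ∧ (N : ℤ) ∣ c := by
  refine ⟨toMat γ 0 0, toMat γ 0 1, toMat γ 1 0, toMat γ 1 1, Matrix.eta_fin_two _, ?_, ?_⟩
  · have h := det_toMat γ
    rw [Matrix.det_fin_two] at h
    linarith
  · have h : ((((γ : SL(2, ℤ)) 1 0 : ℤ)) : ZMod N) = 0 := Gamma0_mem.1 γ.2
    exact (ZMod.intCast_zmod_eq_zero_iff_dvd _ _).1 h

/-- Solving `u * j' ≡ v (mod p)` with `0 ≤ j' < p` when `p ∤ u`. -/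
theorem solve (p : ℕ) (hp : p.Prime) (u v : ℤ) (hu : ¬ (p : ℤ) ∣ u) :
    ∃ (j' : Fin p) (q : ℤ), v - u * ((j' : ℕ) : ℤ) = (p : ℤ) * q := by
  have : Fact p.Prime := ⟨hp⟩
  have hu' : ((u : ℤ) : ZMod p) ≠ 0 := fun h => hu ((ZMod.intCast_zmod_eq_zero_iff_dvd u p).1 h)
  set x : ZMod p := (v : ZMod p) * ((u : ℤ) : ZMod p)⁻¹ with hx
  have hux : ((u : ℤ) : ZMod p) * x = (v : ZMod p) := by
    rw [hx]
    field_simp
  have hdvd : (p : ℤ) ∣ v - u * ((x.val : ℕ) : ℤ) := by
    rw [← ZMod.intCast_zmod_eq_zero_iff_dvd]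
    push_cast
    rw [ZMod.natCast_zmod_val, hux, sub_self]
  obtain ⟨q, hq⟩ := hdvd
  exact ⟨⟨x.val, ZMod.val_lt x⟩, q, hq⟩

/-- `p ∤ a + j c` when `p ∣ c` and `a d - b c = 1`. -/
theorem not_dvd (p : ℕ) (hp : p.Prime) (a b c d j : ℤ) (hdet : a * d - b * c = 1)
    (hc : (p : ℤ) ∣ c) : ¬ (p : ℤ) ∣ a + j * c := by
  intro h
  obtain ⟨c', rfl⟩ := hc
  obtain ⟨q, hq⟩ := h
  have h1 : (p : ℤ) ∣ 1 := by
    refine ⟨(q - j * c') * d - b * c', ?_⟩
    have ha : a = (p : ℤ) * (q - j * c') := by linarith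
    rw [← hdet, ha]
    ring
  have h2 : (p : ℤ) = 1 := by
    have h3 := Int.eq_one_of_dvd_one (by positivity) h1
    exact h3
  have h4 : p = 1 := by exact_mod_cast h2
  exact hp.ne_one h4

/-- The generic step: if `p ∤ a + j c`, then `α_j γ = t α_{j'}` for suitable `j'`, `t`. -/
theorem step_some (N p : ℕ) (hp : p.Prime) (a b c d : ℤ) (j : ℕ)
    (hdet : a * d - b * c = 1) (hc : (N : ℤ) ∣ c) (hndvd : ¬ (p : ℤ) ∣ a + (j : ℤ) * c) :
    ∃ (j' : Fin p) (t : ↥(Gamma0 N)),
      alphaU p j * !![a, b; c, d] = toMat t * alphaU p (j' : ℕ) := by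
  obtain ⟨j', q, hq⟩ := solve p hp (a + (j : ℤ) * c) (b + (j : ℤ) * d) hndvd
  obtain ⟨t, ht⟩ := exists_gamma0 N (a + (j : ℤ) * c) q ((p : ℤ) * c)
    (d - c * ((j' : ℕ) : ℤ)) (by linear_combination hdet + c * hq) (Dvd.dvd.mul_left hc _)
  refine ⟨j', t, ?_⟩
  rw [ht, alphaU, alphaU, mat_mul, mat_mul, mat_eq_iff]
  refine ⟨by ring, by linear_combination hq, by ring, by ring⟩

end HeckeDataAux

open HeckeDataAux

section U

variable (N p : ℕ) [NeZero N]

theorem exists_decomp_U (hp : p.Prime) (hpN : p ∣ N) (γ : ↥(Gamma0 N)) (j : Fin p) :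
    ∃ (j' : Fin p) (t : ↥(Gamma0 N)), alphaU p j * toMat γ = toMat t * alphaU p j' := by
  obtain ⟨a, b, c, d, hγ, hdet, hc⟩ := entries N γ
  have hpc : (p : ℤ) ∣ c := (Int.natCast_dvd_natCast.2 hpN).trans hc
  rw [hγ]
  exact step_some N p hp a b c d j hdet hc (not_dvd p hp a b c d j hdet hpc)

theorem distinct_U (hp : p.Prime) (j j' : Fin p) (t : ↥(Gamma0 N))
    (h : alphaU p j = toMat t * alphaU p j') : j = j' := by
  obtain ⟨a, b, c, d, ht, hdet, hc⟩ := entries N t
  rw [ht, alphaU, alphaU, mat_mul, mat_eq_iff] at h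
  obtain ⟨h1, h2, h3, h4⟩ := h
  have hj : ((j : ℕ) : ℤ) < p := by exact_mod_cast j.2
  have hj' : ((j' : ℕ) : ℤ) < p := by exact_mod_cast j'.2
  have hj0 : (0 : ℤ) ≤ ((j : ℕ) : ℤ) := Int.natCast_nonneg _
  have hj'0 : (0 : ℤ) ≤ ((j' : ℕ) : ℤ) := Int.natCast_nonneg _
  have hp0 : (0 : ℤ) < p := by exact_mod_cast hp.pos
  have ha : a = 1 := by linarith
  rw [ha] at h2
  have hb : b = 0 := by
    by_contra hb
    rcases lt_or_gt_of_ne hb with hb | hb
    · have : b ≤ -1 := by omega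
      nlinarith
    · have : 1 ≤ b := by omega
      nlinarith
  rw [hb] at h2
  apply Fin.ext
  have : ((j : ℕ) : ℤ) = ((j' : ℕ) : ℤ) := by linarith
  exact_mod_cast this

/-- The Hecke datum of `U_p`, `p ∣ N`. -/
def heckeDatumU (hp : p.Prime) (hpN : p ∣ N) : HeckeDatum N where
  J := Fin p
  α := fun j => alphaU p (j : ℕ)
  det_pos := fun j => by rw [det_alphaU]; exact_mod_cast hp.pos
  exists_decomp := exists_decomp_U N p hp hpN
  distinct := distinct_U N p hp

theorem heckeDatumU_isUpper (hp : p.Prime) (hpN : p ∣ N) : (heckeDatumU N p hp hpN).IsUpper := by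
  intro j
  refine ⟨by simp [heckeDatumU, alphaU], by simp [heckeDatumU, alphaU], ?_⟩
  simpa [heckeDatumU, alphaU] using hp.pos

end U

section T

variable (N p : ℕ) [NeZero N]

theorem exists_decomp_T (hp : p.Prime) (hpN : ¬ p ∣ N) (γ : ↥(Gamma0 N)) (j : Option (Fin p)) :
    ∃ (j' : Option (Fin p)) (t : ↥(Gamma0 N)), alphaT p j * toMat γ = toMat t * alphaT p j' := by
  obtain ⟨a, b, c, d, hγ, hdet, hc⟩ := entries N γ
  rw [hγ]
  cases j with
  | some j =>
    by_cases hdvd : (p : ℤ) ∣ a + ((j : ℕ) : ℤ) * c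
    · -- target `none`
      obtain ⟨q, hq⟩ := hdvd
      obtain ⟨t, ht⟩ := exists_gamma0 N q (b + ((j : ℕ) : ℤ) * d) c ((p : ℤ) * d)
        (by linear_combination hdet - d * hq) hc
      refine ⟨none, t, ?_⟩
      simp only [alphaT]
      rw [ht, alphaU, alphaInf, mat_mul, mat_mul, mat_eq_iff]
      refine ⟨by linear_combination hq, by ring, by ring, by ring⟩
    · obtain ⟨j', t, h⟩ := step_some N p hp a b c d j hdet hc hdvd
      exact ⟨some j', t, h⟩
  | none =>
    by_cases hdvd : (p : ℤ) ∣ c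
    · -- target `none`
      obtain ⟨c', hc'⟩ := hdvd
      have hNc' : (N : ℤ) ∣ c' := by
        have hcop : IsCoprime (N : ℤ) (p : ℤ) := by
          rw [Nat.isCoprime_iff_coprime]
          exact ((Nat.Prime.coprime_iff_not_dvd hp).2 hpN).symm
        rw [hc'] at hc
        exact hcop.dvd_of_dvd_mul_left hc
      obtain ⟨t, ht⟩ := exists_gamma0 N a ((p : ℤ) * b) c' d
        (by rw [hc'] at hdet; linear_combination hdet) hNc'
      refine ⟨none, t, ?_⟩
      simp only [alphaT]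
      rw [ht, alphaInf, mat_mul, mat_mul, mat_eq_iff]
      refine ⟨by ring, by ring, by rw [hc']; ring, by ring⟩
    · -- target `some j'`
      obtain ⟨j', q, hq⟩ := solve p hp c d hdvd
      obtain ⟨t, ht⟩ := exists_gamma0 N ((p : ℤ) * a) (b - a * ((j' : ℕ) : ℤ)) c q
        (by linear_combination hdet - a * hq) hc
      refine ⟨some j', t, ?_⟩
      simp only [alphaT]
      rw [ht, alphaU, alphaInf, mat_mul, mat_mul, mat_eq_iff]
      refine ⟨by ring, by ring, by ring, by linear_combination hq⟩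

theorem distinct_T (hp : p.Prime) (j j' : Option (Fin p)) (t : ↥(Gamma0 N))
    (h : alphaT p j = toMat t * alphaT p j') : j = j' := by
  have hp1 : (1 : ℤ) < p := by exact_mod_cast hp.one_lt
  cases j with
  | some j =>
    cases j' with
    | some j' =>
      exact congrArg some (distinct_U N p hp j j' t h)
    | none =>
      exfalso
      obtain ⟨a, b, c, d, ht, hdet, hc⟩ := entries N t
      simp only [alphaT] at h
      rw [ht, alphaU, alphaInf, mat_mul, mat_eq_iff] at h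
      obtain ⟨h1, h2, h3, h4⟩ := h
      -- `1 = a * p`
      have h1' : a * (p : ℤ) = 1 := by linarith
      have hpu : (p : ℤ) ∣ 1 := ⟨a, by linarith⟩
      have := Int.eq_one_of_dvd_one (by linarith) hpu
      linarith
  | none =>
    cases j' with
    | some j' =>
      exfalso
      obtain ⟨a, b, c, d, ht, hdet, hc⟩ := entries N t
      simp only [alphaT] at h
      rw [ht, alphaU, alphaInf, mat_mul, mat_eq_iff] at h
      obtain ⟨h1, h2, h3, h4⟩ := h
      -- `a = p`, `c = 0`, so `p * d = 1`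
      have ha : a = (p : ℤ) := by linarith
      have hc0 : c = 0 := by linarith
      rw [ha, hc0] at hdet
      have hpu : (p : ℤ) ∣ 1 := ⟨d, by linarith⟩
      have := Int.eq_one_of_dvd_one (by linarith) hpu
      linarith
    | none => rfl

/-- The Hecke datum of `T_p`, `p ∤ N`. -/
def heckeDatumT (hp : p.Prime) (hpN : ¬ p ∣ N) : HeckeDatum N where
  J := Option (Fin p)
  α := alphaT p
  det_pos := fun j => by rw [det_alphaT]; exact_mod_cast hp.pos
  exists_decomp := exists_decomp_T N p hp hpN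
  distinct := distinct_T N p hp

theorem heckeDatumT_isUpper (hp : p.Prime) (hpN : ¬ p ∣ N) :
    (heckeDatumT N p hp hpN).IsUpper := by
  intro j
  cases j with
  | none =>
    refine ⟨by simp [heckeDatumT, alphaT, alphaInf], ?_, by simp [heckeDatumT, alphaT, alphaInf]⟩
    simpa [heckeDatumT, alphaT, alphaInf] using hp.pos
  | some j =>
    refine ⟨by simp [heckeDatumT, alphaT, alphaU], by simp [heckeDatumT, alphaT, alphaU], ?_⟩
    simpa [heckeDatumT, alphaT, alphaU] using hp.pos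

end T

end Fermat.Agent.S22
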