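import Mathlib
import Fermat.Prelude.Def_CuspForm_HeckeAlgebra
import Fermat.Agent.S22.HeckeData
import Fermat.Agent.S22.CocycleOfForm

/-!
# S22, part 6 (vi): Hecke equivariance of the Eichler–Shimura map
-/

set_option autoImplicit false

namespace Fermat.Agent.S22

open Complex CongruenceSubgroup Filter Topology MvPolynomial
open UpperHalfPlane hiding I
open scoped MatrixGroups ModularForm Manifold Real

variable {N : ℕ} [NeZero N] {m : ℕ}

omit [NeZero N] in
/-- The real matrix of the image in `GL (Fin 2) ℝ` of an element of `Gamma0 N` is the cast of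
its integer matrix. -/
theorem equivariance_mapGL_coe (γ : ↥(Gamma0 N)) :
    ((Matrix.SpecialLinearGroup.mapGL ℝ (γ : SL(2, ℤ)) : GL (Fin 2) ℝ) :
      Matrix (Fin 2) (Fin 2) ℝ) = (toMat γ).map (Int.cast : ℤ → ℝ) := by
  rfl

omit [NeZero N] in
/-- The relation `α j * γ = t * α (σ γ j)` of a Hecke datum, transported to `GL (Fin 2) ℝ`. -/
theorem equivariance_gl_rel (D : HeckeDatum N) (g : D.J → GL (Fin 2) ℝ)
    (hg : ∀ j, (g j : Matrix (Fin 2) (Fin 2) ℝ) = (D.α j).map (Int.cast : ℤ → ℝ))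
    (γ : ↥(Gamma0 N)) (j : D.J) :
    g j * Matrix.SpecialLinearGroup.mapGL ℝ (γ : SL(2, ℤ)) =
      Matrix.SpecialLinearGroup.mapGL ℝ ((D.t γ j : ↥(Gamma0 N)) : SL(2, ℤ)) * g (D.σ γ j) := by
  apply Units.ext
  rw [Units.val_mul, Units.val_mul, hg, hg, equivariance_mapGL_coe, equivariance_mapGL_coe]
  have h := congrArg (fun M : Matrix (Fin 2) (Fin 2) ℤ => M.map (Int.castRingHom ℝ)) (D.rel γ j)
  simp only [Matrix.map_mul] at h
  exact h

omit [NeZero N] in
/-- The relation of a Hecke datum on points of the upper half plane. -/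
theorem equivariance_smul_rel (D : HeckeDatum N) (g : D.J → GL (Fin 2) ℝ)
    (hg : ∀ j, (g j : Matrix (Fin 2) (Fin 2) ℝ) = (D.α j).map (Int.cast : ℤ → ℝ))
    (γ : ↥(Gamma0 N)) (j : D.J) (τ : ℍ) :
    g j • ((γ : SL(2, ℤ)) • τ) = ((D.t γ j : ↥(Gamma0 N)) : SL(2, ℤ)) • (g (D.σ γ j) • τ) := by
  have h1 : ((γ : SL(2, ℤ)) • τ) = Matrix.SpecialLinearGroup.mapGL ℝ (γ : SL(2, ℤ)) • τ := rfl
  have h2 : ((D.t γ j : ↥(Gamma0 N)) : SL(2, ℤ)) • (g (D.σ γ j) • τ) =
      Matrix.SpecialLinearGroup.mapGL ℝ ((D.t γ j : ↥(Gamma0 N)) : SL(2, ℤ)) •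
        (g (D.σ γ j) • τ) := rfl
  rw [h1, h2, ← mul_smul, ← mul_smul, equivariance_gl_rel D g hg γ j]

/-- Abstract Hecke equivariance: if `f' = ∑ j, f ∣[m + 2] α j` for an upper triangular Hecke
datum, then `c_{f'} = heckeOp c_f`. -/
theorem eichlerShimura_hecke (D : HeckeDatum N) (hD : D.IsUpper) (g : D.J → GL (Fin 2) ℝ)
    (hg : ∀ j, (g j : Matrix (Fin 2) (Fin 2) ℝ) = (D.α j).map (Int.cast : ℤ → ℝ))
    (f f' : CuspForm (Gamma0 N) ((m : ℤ) + 2))
    (hff' : (f' : ℍ → ℂ) = ∑ j, (f : ℍ → ℂ) ∣[(m : ℤ) + 2] g j) :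
    eichlerShimura N m f' = D.heckeOp (eichlerShimura N m f) := by
  have hk : (0 : ℤ) ≤ (m : ℤ) + 2 := by positivity
  have hF : ∀ τ : ℍ, eichlerF f' m τ = ∑ j, subst ℂ (D.α j) (eichlerF f m (g j • τ)) :=
    eichlerF_hecke (cuspLike_cuspForm hk f) (cuspLike_cuspForm hk f') m g D.α hg hD hff'
  funext γ
  rw [eichlerShimura_apply, eichlerShimura_apply, HeckeDatum.heckeOp_apply]
  have key : ∀ j, subst ℂ (toMat γ)
      (subst ℂ (D.α j) (eichlerF f m (g j • ((γ : SL(2, ℤ)) • UpperHalfPlane.I)))) =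
      subst ℂ (D.α (D.σ γ j)) (cocycleOfFun N m f (D.t γ j)) +
        subst ℂ (D.α (D.σ γ j)) (eichlerF f m (g (D.σ γ j) • UpperHalfPlane.I)) := by
    intro j
    rw [← subst_mul, D.rel γ j, subst_mul, equivariance_smul_rel D g hg γ j,
      ← cocycleOfFun_eq f (D.t γ j) (g (D.σ γ j) • UpperHalfPlane.I), ← map_add, sub_add_cancel]
  have hL : cocycleOfFun N m f' γ =
      subst ℂ (toMat γ) (eichlerF f' m ((γ : SL(2, ℤ)) • UpperHalfPlane.I)) -
        eichlerF f' m UpperHalfPlane.I := rfl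
  rw [hL, hF, hF, map_sum]
  simp_rw [key]
  rw [Finset.sum_add_distrib,
    (D.σ_bijective γ).sum_comp (fun j => subst ℂ (D.α j) (eichlerF f m (g j • UpperHalfPlane.I))),
    add_sub_cancel_right]

theorem eichlerShimura_heckeT {p : ℕ} (hp : p.Prime) (hpN : ¬ p ∣ N)
    (f : CuspForm (Gamma0 N) ((m : ℤ) + 2)) :
    eichlerShimura N m (CuspForm.heckeTLin ((m : ℤ) + 2) hp hpN f) =
      (heckeDatumT N p hp hpN).heckeOp (eichlerShimura N m f) := by
  refine eichlerShimura_hecke (heckeDatumT N p hp hpN) (heckeDatumT_isUpper N p hp hpN)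
    (fun j : Option (Fin p) => j.elim (ModularForm.heckeDiagMatrix p)
      (fun i => ModularForm.heckeMatrix p (i : ℕ))) ?_ f _ ?_
  · intro j
    cases j with
    | none =>
      show ((ModularForm.heckeDiagMatrix p : GL (Fin 2) ℝ) : Matrix (Fin 2) (Fin 2) ℝ) =
        (alphaInf p).map (Int.cast : ℤ → ℝ)
      rw [ModularForm.val_heckeDiagMatrix hp.ne_zero]
      ext a b
      fin_cases a <;> fin_cases b <;> simp [alphaInf]
    | some i =>
      show ((ModularForm.heckeMatrix p (i : ℕ) : GL (Fin 2) ℝ) : Matrix (Fin 2) (Fin 2) ℝ) =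
        (alphaU p (i : ℕ)).map (Int.cast : ℤ → ℝ)
      rw [ModularForm.val_heckeMatrix hp.ne_zero]
      ext a b
      fin_cases a <;> fin_cases b <;> simp [alphaU]
  · rw [CuspForm.coe_heckeTLin_apply, ModularForm.heckeT_def]
    show _ = ∑ j : Option (Fin p), (f : ℍ → ℂ) ∣[(m : ℤ) + 2]
      (j.elim (ModularForm.heckeDiagMatrix p) (fun i => ModularForm.heckeMatrix p (i : ℕ)))
    rw [Fintype.sum_option, Finset.sum_range, add_comm]
    rfl

theorem eichlerShimura_heckeU {p : ℕ} (hp : p.Prime) (hpN : p ∣ N)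
    (f : CuspForm (Gamma0 N) ((m : ℤ) + 2)) :
    eichlerShimura N m (CuspForm.heckeULin ((m : ℤ) + 2) hpN f) =
      (heckeDatumU N p hp hpN).heckeOp (eichlerShimura N m f) := by
  refine eichlerShimura_hecke (heckeDatumU N p hp hpN) (heckeDatumU_isUpper N p hp hpN)
    (fun j : Fin p => ModularForm.heckeMatrix p (j : ℕ)) ?_ f _ ?_
  · intro (j : Fin p)
    show ((ModularForm.heckeMatrix p (j : ℕ) : GL (Fin 2) ℝ) : Matrix (Fin 2) (Fin 2) ℝ) =
      (alphaU p (j : ℕ)).map (Int.cast : ℤ → ℝ)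
    rw [ModularForm.val_heckeMatrix hp.ne_zero]
    ext a b
    fin_cases a <;> fin_cases b <;> simp [alphaU]
  · rw [CuspForm.coe_heckeULin_apply, ModularForm.heckeU_def]
    show _ = ∑ j : Fin p, (f : ℍ → ℂ) ∣[(m : ℤ) + 2] ModularForm.heckeMatrix p (j : ℕ)
    rw [Finset.sum_range]

end Fermat.Agent.S22
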