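import Mathlib
import Fermat.Agent.S22.IterPrimCuspLike

/-!
# S22, part 7 (cusps): boundedness of `g ^ M * Δ` at all cusps
-/

set_option autoImplicit false

namespace Fermat.Agent.S22

open Complex CongruenceSubgroup Filter Topology
open UpperHalfPlane hiding I
open scoped MatrixGroups ModularForm Manifold Real

/-- Pointwise formula for `(g ^ M * Δ) ∣[M * w + 12] σ`. -/
theorem cuspBound_slash_formula (g : ℍ → ℂ) (w : ℤ) (M : ℕ) (σ : SL(2, ℤ)) (τ : ℍ) :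
    ((g ^ M * ModularForm.discriminant) ∣[(M : ℤ) * w + 12] σ) τ =
      (g (σ • τ) * denom σ τ ^ (-w)) ^ M * ModularForm.discriminant τ := by
  rw [ModularForm.mul_slash_SL2, Pi.mul_apply,
    SlashInvariantForm.slash_action_generators_SL2Z ModularForm.discriminant_S_invariant
      ModularForm.discriminant_T_invariant σ, ModularForm.SL_slash_apply, Pi.pow_apply, mul_pow]
  congr 2
  rw [← zpow_natCast (denom σ τ ^ (-w)) M, ← zpow_mul]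
  congr 1
  ring

/-- `g ^ M * Δ` is invariant of weight `M * w + 12` under `γ` if `g` is invariant
of weight `w` under `γ`. -/
theorem cuspBound_slash_invariant {g : ℍ → ℂ} {w : ℤ} (M : ℕ) {γ : SL(2, ℤ)}
    (hγ : g ∣[w] γ = g) :
    (g ^ M * ModularForm.discriminant) ∣[(M : ℤ) * w + 12] γ =
      g ^ M * ModularForm.discriminant := by
  ext τ
  rw [cuspBound_slash_formula, ← ModularForm.SL_slash_apply, hγ]
  rfl

theorem cuspBound_Gamma_le_Gamma0 (N : ℕ) : CongruenceSubgroup.Gamma N ≤ Gamma0 N := by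
  intro γ hγ
  rw [Gamma_mem] at hγ
  rw [Gamma0_mem]
  exact hγ.2.2.1

theorem cuspBound_denom_T_zpow (n : ℤ) (τ : ℍ) :
    denom ((ModularGroup.T ^ n : SL(2, ℤ)) : GL (Fin 2) ℝ) τ = 1 := by
  rw [ModularGroup.denom_apply, ModularGroup.coe_T_zpow]
  simp

/-- Periodicity of `(g ^ M * Δ) ∣[M * w + 12] σ` under translations by multiples of `N`. -/
theorem cuspBound_periodic {N : ℕ} {g : ℍ → ℂ} {w : ℤ}
    (hinv : ∀ γ ∈ Gamma0 N, g ∣[w] γ = g) (M : ℕ) (σ : SL(2, ℤ)) (j : ℤ) (τ : ℍ) :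
    ((g ^ M * ModularForm.discriminant) ∣[(M : ℤ) * w + 12] σ) (((j * N : ℤ) : ℝ) +ᵥ τ) =
      ((g ^ M * ModularForm.discriminant) ∣[(M : ℤ) * w + 12] σ) τ := by
  set u : ℍ → ℂ := g ^ M * ModularForm.discriminant with hu
  set W : ℤ := (M : ℤ) * w + 12 with hW
  have hmem : σ * ModularGroup.T ^ (j * N : ℤ) * σ⁻¹ ∈ Gamma0 N := by
    apply cuspBound_Gamma_le_Gamma0
    apply (Gamma_normal N).conj_mem
    have := ModularGroup_T_pow_mem_Gamma (N : ℤ) (j * N) (dvd_mul_left _ _)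
    simpa using this
  have h1 : u ∣[W] (σ * ModularGroup.T ^ (j * N : ℤ) * σ⁻¹) = u :=
    cuspBound_slash_invariant M (hinv _ hmem)
  have h2 : (u ∣[W] σ) ∣[W] (ModularGroup.T ^ (j * N : ℤ)) = u ∣[W] σ := by
    rw [← SlashAction.slash_mul]
    conv_rhs => rw [← h1]
    rw [← SlashAction.slash_mul]
    congr 1
    group
  have h3 := congrFun h2 τ
  rw [ModularForm.SL_slash_apply, cuspBound_denom_T_zpow, one_zpow, mul_one,
    UpperHalfPlane.modular_T_zpow_smul] at h3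
  exact h3

/-- Exponential decay of `Δ` at `i∞`, in explicit form. -/
theorem cuspBound_discriminant_decay : ∃ (C₂ A₀ : ℝ), 0 ≤ C₂ ∧ ∀ τ : ℍ, A₀ ≤ τ.im →
    ‖ModularForm.discriminant τ‖ ≤ C₂ * Real.exp (-2 * π * τ.im) := by
  have h := CuspFormClass.exp_decay_atImInfty (h := 1) CuspForm.discriminant one_pos
    one_mem_strictPeriods_SL
  rw [Asymptotics.isBigO_iff] at h
  obtain ⟨c, hc⟩ := h
  obtain ⟨A, hA⟩ := (atImInfty_mem _).mp hc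
  refine ⟨|c|, A, abs_nonneg c, fun τ hτ => ?_⟩
  have h1 : ‖CuspForm.discriminant τ‖ ≤ c * ‖Real.exp (-2 * π * τ.im / 1)‖ := hA τ hτ
  rw [div_one, Real.norm_eq_abs, Real.abs_exp] at h1
  calc ‖ModularForm.discriminant τ‖ ≤ c * Real.exp (-2 * π * τ.im) := h1
    _ ≤ |c| * Real.exp (-2 * π * τ.im) :=
      mul_le_mul_of_nonneg_right (le_abs_self c) (Real.exp_pos _).le

/-- `y ^ k * exp (-2 π y) ≤ k !` for `y ≥ 0`. -/
theorem cuspBound_pow_mul_exp_le (k : ℕ) {y : ℝ} (hy : 0 ≤ y) :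
    y ^ k * Real.exp (-2 * π * y) ≤ (k.factorial : ℝ) := by
  have h1 : y ^ k / (k.factorial : ℝ) ≤ Real.exp y := Real.pow_div_factorial_le_exp y hy k
  have hk : (0 : ℝ) < k.factorial := by exact_mod_cast k.factorial_pos
  have h2 : y ^ k ≤ (k.factorial : ℝ) * Real.exp y := by
    rw [div_le_iff₀ hk] at h1
    linarith
  have h3 : Real.exp (-2 * π * y) ≤ Real.exp (-y) := by
    apply Real.exp_le_exp.mpr
    have : (1 : ℝ) ≤ 2 * π := by linarith [Real.pi_gt_three]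
    nlinarith
  calc y ^ k * Real.exp (-2 * π * y) ≤ ((k.factorial : ℝ) * Real.exp y) * Real.exp (-y) :=
        mul_le_mul h2 h3 (Real.exp_pos _).le (by positivity)
    _ = (k.factorial : ℝ) := by
        rw [mul_assoc, ← Real.exp_add, add_neg_cancel, Real.exp_zero, mul_one]

/-- Bound for `‖denom σ τ‖` on the strip `0 ≤ re τ ≤ N`, `1 ≤ im τ`. -/
theorem cuspBound_norm_denom_le (N : ℕ) (σ : SL(2, ℤ)) (τ : ℍ) (h0 : 0 ≤ τ.re) (hN : τ.re ≤ N)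
    (h1 : 1 ≤ τ.im) :
    ‖denom σ τ‖ ≤ (|((σ 1 0 : ℤ) : ℝ)| * (N + 1) + |((σ 1 1 : ℤ) : ℝ)|) * τ.im := by
  rw [ModularGroup.denom_apply]
  have hτ : ‖(τ : ℂ)‖ ≤ N + τ.im := by
    calc ‖(τ : ℂ)‖ ≤ |(τ : ℂ).re| + |(τ : ℂ).im| := Complex.norm_le_abs_re_add_abs_im _
      _ = τ.re + τ.im := by
        rw [UpperHalfPlane.coe_re, UpperHalfPlane.coe_im, abs_of_nonneg h0,
          abs_of_pos τ.im_pos]
      _ ≤ N + τ.im := by linarith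
  have hc : 0 ≤ |((σ 1 0 : ℤ) : ℝ)| := abs_nonneg _
  have hd : 0 ≤ |((σ 1 1 : ℤ) : ℝ)| := abs_nonneg _
  have hNn : (0 : ℝ) ≤ N := Nat.cast_nonneg N
  calc ‖((σ 1 0 : ℤ) : ℂ) * (τ : ℂ) + ((σ 1 1 : ℤ) : ℂ)‖
      ≤ ‖((σ 1 0 : ℤ) : ℂ) * (τ : ℂ)‖ + ‖((σ 1 1 : ℤ) : ℂ)‖ := norm_add_le _ _
    _ = |((σ 1 0 : ℤ) : ℝ)| * ‖(τ : ℂ)‖ + |((σ 1 1 : ℤ) : ℝ)| := by
      rw [norm_mul, Complex.norm_intCast, Complex.norm_intCast]
    _ ≤ |((σ 1 0 : ℤ) : ℝ)| * (N + τ.im) + |((σ 1 1 : ℤ) : ℝ)| := by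
      gcongr
    _ ≤ (|((σ 1 0 : ℤ) : ℝ)| * (N + 1) + |((σ 1 1 : ℤ) : ℝ)|) * τ.im := by
      nlinarith [mul_nonneg hc hNn, mul_nonneg (mul_nonneg hc hNn) (sub_nonneg.mpr h1),
        mul_nonneg hd (sub_nonneg.mpr h1)]

/-- The constant `K = |c| (N + 1) + |d|` is at least `1`. -/
theorem cuspBound_one_le_K (N : ℕ) (σ : SL(2, ℤ)) :
    1 ≤ |((σ 1 0 : ℤ) : ℝ)| * (N + 1) + |((σ 1 1 : ℤ) : ℝ)| := by
  have hdet := Matrix.SpecialLinearGroup.det_coe σ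
  rw [Matrix.det_fin_two] at hdet
  have hcd : (1 : ℤ) ≤ |σ 1 0| + |σ 1 1| := by
    by_contra hlt
    rw [not_le] at hlt
    have h1 : |σ 1 0| = 0 := by linarith [abs_nonneg (σ 1 0), abs_nonneg (σ 1 1)]
    have h2 : |σ 1 1| = 0 := by linarith [abs_nonneg (σ 1 0), abs_nonneg (σ 1 1)]
    rw [abs_eq_zero] at h1 h2
    rw [h1, h2] at hdet
    simp at hdet
  have hcd' : (1 : ℝ) ≤ |((σ 1 0 : ℤ) : ℝ)| + |((σ 1 1 : ℤ) : ℝ)| := by
    exact_mod_cast hcd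
  have hc : 0 ≤ |((σ 1 0 : ℤ) : ℝ)| := abs_nonneg _
  have hNn : (0 : ℝ) ≤ N := Nat.cast_nonneg N
  nlinarith [mul_nonneg hc hNn]

/-- The constant in a growth bound is nonnegative. -/
theorem cuspBound_const_nonneg {g : ℍ → ℂ} {C : ℝ} {n : ℕ}
    (hC : ∀ τ : ℍ, ‖g τ‖ ≤ C * max 1 (1 / τ.im ^ n)) : 0 ≤ C := by
  have h1 := hC UpperHalfPlane.I
  have h2 : (0 : ℝ) < max 1 (1 / (UpperHalfPlane.I).im ^ n) :=
    lt_of_lt_of_le one_pos (le_max_left _ _)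
  by_contra hneg
  rw [not_le] at hneg
  have h3 := norm_nonneg (g UpperHalfPlane.I)
  nlinarith

/-- Bound on `‖g (σ • τ) * denom σ τ ^ (-w)‖` on the strip `0 ≤ re τ ≤ N`, `1 ≤ im τ`. -/
theorem cuspBound_factor_le {g : ℍ → ℂ} {C : ℝ} {n : ℕ}
    (hC : ∀ τ : ℍ, ‖g τ‖ ≤ C * max 1 (1 / τ.im ^ n)) {w : ℤ} (hw : w ≤ 0)
    (N : ℕ) (σ : SL(2, ℤ)) (τ : ℍ) (h0 : 0 ≤ τ.re) (hN : τ.re ≤ N) (h1 : 1 ≤ τ.im) :
    ‖g (σ • τ) * denom σ τ ^ (-w)‖ ≤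
      C * ((|((σ 1 0 : ℤ) : ℝ)| * (N + 1) + |((σ 1 1 : ℤ) : ℝ)|) * τ.im) ^
        (2 * n + (-w).toNat) := by
  have hK1 : 1 ≤ |((σ 1 0 : ℤ) : ℝ)| * (N + 1) + |((σ 1 1 : ℤ) : ℝ)| := cuspBound_one_le_K N σ
  have hden := cuspBound_norm_denom_le N σ τ h0 hN h1
  set B : ℝ := (|((σ 1 0 : ℤ) : ℝ)| * (N + 1) + |((σ 1 1 : ℤ) : ℝ)|) * τ.im with hB
  have hB1 : 1 ≤ B := by nlinarith
  have hC0 : 0 ≤ C := cuspBound_const_nonneg hC
  have him : (σ • τ).im = τ.im / Complex.normSq (denom σ τ) :=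
    ModularGroup.im_smul_eq_div_normSq σ τ
  have h2 : 1 / (σ • τ).im ^ n ≤ B ^ (2 * n) := by
    rw [him, ← one_div_pow, one_div_div, Complex.normSq_eq_norm_sq, pow_mul]
    apply pow_le_pow_left₀ (by positivity)
    rw [div_le_iff₀ τ.im_pos]
    calc ‖denom σ τ‖ ^ 2 ≤ B ^ 2 := pow_le_pow_left₀ (norm_nonneg _) hden 2
      _ ≤ B ^ 2 * τ.im := by nlinarith [sq_nonneg B]
  have h3 : ‖g (σ • τ)‖ ≤ C * B ^ (2 * n) := by
    refine (hC (σ • τ)).trans (mul_le_mul_of_nonneg_left ?_ hC0)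
    exact max_le (one_le_pow₀ hB1) h2
  have h4 : ‖denom σ τ ^ (-w)‖ ≤ B ^ (-w).toNat := by
    obtain ⟨e, he⟩ := Int.eq_ofNat_of_zero_le (by omega : 0 ≤ -w)
    rw [he, zpow_natCast, norm_pow, Int.toNat_natCast]
    exact pow_le_pow_left₀ (norm_nonneg _) hden _
  calc ‖g (σ • τ) * denom σ τ ^ (-w)‖ = ‖g (σ • τ)‖ * ‖denom σ τ ^ (-w)‖ := norm_mul _ _
    _ ≤ (C * B ^ (2 * n)) * B ^ (-w).toNat := mul_le_mul h3 h4 (norm_nonneg _) (by positivity)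
    _ = C * B ^ (2 * n + (-w).toNat) := by rw [pow_add, mul_assoc]

/-- Boundedness of `(g ^ M * Δ) ∣[M * w + 12] σ` on the part `0 ≤ re τ ≤ N` of a neighbourhood
of `i∞`. -/
theorem cuspBound_strip (N : ℕ) {g : ℍ → ℂ} (hg : CuspLike g) {w : ℤ} (hw : w ≤ 0) (M : ℕ)
    (σ : SL(2, ℤ)) :
    ∃ B A : ℝ, ∀ τ : ℍ, A ≤ τ.im → 0 ≤ τ.re → τ.re ≤ N →
      ‖((g ^ M * ModularForm.discriminant) ∣[(M : ℤ) * w + 12] σ) τ‖ ≤ B := by
  obtain ⟨C, n, hC⟩ := hg.growth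
  obtain ⟨C₂, A₀, hC₂, hΔ⟩ := cuspBound_discriminant_decay
  have hC0 : 0 ≤ C := cuspBound_const_nonneg hC
  have hK1 : 1 ≤ |((σ 1 0 : ℤ) : ℝ)| * (N + 1) + |((σ 1 1 : ℤ) : ℝ)| := cuspBound_one_le_K N σ
  set K : ℝ := |((σ 1 0 : ℤ) : ℝ)| * (N + 1) + |((σ 1 1 : ℤ) : ℝ)| with hK
  set k : ℕ := (2 * n + (-w).toNat) * M with hk
  refine ⟨C ^ M * K ^ k * (C₂ * k.factorial), max A₀ 1, fun τ hτ h0 hN => ?_⟩
  have h1 : 1 ≤ τ.im := le_trans (le_max_right _ _) hτ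
  have hA₀ : A₀ ≤ τ.im := le_trans (le_max_left _ _) hτ
  rw [cuspBound_slash_formula, norm_mul, norm_pow]
  have hf := cuspBound_factor_le hC hw N σ τ h0 hN h1
  have hf' : ‖g (σ • τ) * denom σ τ ^ (-w)‖ ^ M ≤ C ^ M * K ^ k * τ.im ^ k := by
    calc ‖g (σ • τ) * denom σ τ ^ (-w)‖ ^ M
        ≤ (C * (K * τ.im) ^ (2 * n + (-w).toNat)) ^ M := pow_le_pow_left₀ (norm_nonneg _) hf M
      _ = C ^ M * K ^ k * τ.im ^ k := by rw [mul_pow, ← pow_mul, mul_pow, mul_assoc]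
  have hΔ' := hΔ τ hA₀
  have hexp := cuspBound_pow_mul_exp_le k τ.im_pos.le
  have hCK : 0 ≤ C ^ M * K ^ k := by positivity
  calc ‖g (σ • τ) * denom σ τ ^ (-w)‖ ^ M * ‖ModularForm.discriminant τ‖
      ≤ (C ^ M * K ^ k * τ.im ^ k) * (C₂ * Real.exp (-2 * π * τ.im)) :=
        mul_le_mul hf' hΔ' (norm_nonneg _) (mul_nonneg hCK (pow_nonneg τ.im_pos.le _))
    _ = C ^ M * K ^ k * (C₂ * (τ.im ^ k * Real.exp (-2 * π * τ.im))) := by ring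
    _ ≤ C ^ M * K ^ k * (C₂ * k.factorial) :=
        mul_le_mul_of_nonneg_left (mul_le_mul_of_nonneg_left hexp hC₂) hCK

/-- Let `g` be cusp-form-like and slash-invariant of weight `w ≤ 0` under `Gamma0 N`.
Then for every `σ ∈ SL(2, ℤ)` the function `(g ^ M * Δ) ∣[M * w + 12] σ` is bounded at `i∞`
(the polynomial growth of `g` near the cusps is killed by the exponential decay of `Δ`). -/
theorem CuspLike.isBoundedAtImInfty_slash {N : ℕ} [NeZero N] {g : ℍ → ℂ} (hg : CuspLike g)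
    {w : ℤ} (hw : w ≤ 0) (hinv : ∀ γ ∈ Gamma0 N, g ∣[w] γ = g) (M : ℕ) (σ : SL(2, ℤ)) :
    IsBoundedAtImInfty ((g ^ M * ModularForm.discriminant) ∣[(M : ℤ) * w + 12] σ) := by
  obtain ⟨B, A, hBA⟩ := cuspBound_strip N hg hw M σ
  rw [UpperHalfPlane.isBoundedAtImInfty_iff]
  refine ⟨B, A, fun τ hτ => ?_⟩
  have hNpos : (0 : ℝ) < N := Nat.cast_pos.mpr (Nat.pos_of_ne_zero (NeZero.ne N))
  have hper := cuspBound_periodic hinv M σ (-⌊τ.re / N⌋) τ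
  rw [← hper]
  apply hBA
  · rw [UpperHalfPlane.vadd_im]
    exact hτ
  · rw [UpperHalfPlane.vadd_re]
    push_cast
    have := Int.floor_le (τ.re / N)
    rw [le_div_iff₀ hNpos] at this
    linarith
  · rw [UpperHalfPlane.vadd_re]
    push_cast
    have := Int.lt_floor_add_one (τ.re / N)
    rw [div_lt_iff₀ hNpos] at this
    linarith

end Fermat.Agent.S22
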