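import Mathlib
import Fermat.Prelude.Thm_ModularForm_sturm_bound_Gamma0
import Fermat.Prelude.Thm_UpperHalfPlane_qExpansion_prod
import Fermat.Agent.S22.CuspBound

/-!
# S22, part 7 (vanishing): cusp-form-like functions of weight `≤ 0` vanish
-/

set_option autoImplicit false

namespace Fermat.Agent.S22

open Complex CongruenceSubgroup Filter Topology
open UpperHalfPlane hiding I
open scoped MatrixGroups ModularForm Manifold Real

/-- The slash action of `SL(2, ℤ)` on a power. -/
theorem van_pow_slash (g : ℍ → ℂ) (w : ℤ) (M : ℕ) (γ : SL(2, ℤ)) :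
    (g ^ M) ∣[(M : ℤ) * w] γ = (g ∣[w] γ) ^ M := by
  ext τ
  simp only [ModularForm.SL_slash_apply, Pi.pow_apply, mul_pow]
  congr 1
  rw [← zpow_natCast, ← zpow_mul]
  congr 1
  ring

/-- The discriminant is invariant under the weight `12` slash action of `SL(2, ℤ)`. -/
theorem van_discriminant_slash (γ : SL(2, ℤ)) :
    ModularForm.discriminant ∣[(12 : ℤ)] γ = ModularForm.discriminant :=
  SlashInvariantForm.slash_action_generators_SL2Z ModularForm.discriminant_S_invariant
    ModularForm.discriminant_T_invariant γ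

/-- Slash invariance of `g ^ M * Δ`. -/
theorem van_slash_invariant {N : ℕ} {g : ℍ → ℂ} {w : ℤ}
    (hinv : ∀ γ ∈ Gamma0 N, g ∣[w] γ = g) (M : ℕ) (γ : SL(2, ℤ)) (hγ : γ ∈ Gamma0 N) :
    (g ^ M * ModularForm.discriminant) ∣[(M : ℤ) * w + 12] γ
      = g ^ M * ModularForm.discriminant := by
  rw [ModularForm.mul_slash_SL2, van_pow_slash, hinv γ hγ, van_discriminant_slash]

/-- The modular form `g ^ M * Δ` of level `Gamma0 N` and weight `M * w + 12`. -/
noncomputable def van_modularForm {N : ℕ} [NeZero N] {g : ℍ → ℂ} (hg : CuspLike g) {w : ℤ}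
    (hw : w ≤ 0) (hinv : ∀ γ ∈ Gamma0 N, g ∣[w] γ = g) (M : ℕ) :
    ModularForm (Gamma0 N) ((M : ℤ) * w + 12) where
  toFun := g ^ M * ModularForm.discriminant
  slash_action_eq' := by
    intro γ hγ
    obtain ⟨γ', hγ', rfl⟩ := hγ
    exact van_slash_invariant hinv M γ' hγ'
  holo' := (hg.holo.pow M).mul CuspForm.discriminant.holo'
  bdd_at_cusps' := by
    intro c hc
    rw [Subgroup.IsArithmetic.isCusp_iff_isCusp_SL2Z] at hc
    rw [OnePoint.isBoundedAt_iff_forall_SL2Z hc]
    intro γ _
    exact hg.isBoundedAtImInfty_slash hw hinv M γ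

theorem van_modularForm_coe {N : ℕ} [NeZero N] {g : ℍ → ℂ} (hg : CuspLike g) {w : ℤ}
    (hw : w ≤ 0) (hinv : ∀ γ ∈ Gamma0 N, g ∣[w] γ = g) (M : ℕ) :
    (van_modularForm hg hw hinv M : ℍ → ℂ) = g ^ M * ModularForm.discriminant := rfl

/-- The cusp function of a cusp-form-like function is analytic at `0`. -/
theorem van_analyticAt {g : ℍ → ℂ} (hg : CuspLike g) : AnalyticAt ℂ (cuspFunction 1 g) 0 :=
  UpperHalfPlane.analyticAt_cuspFunction_zero one_pos hg.periodic hg.holo
    hg.zero.isBoundedAtImInfty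

/-- The constant coefficient of the `q`-expansion of a cusp-form-like function vanishes. -/
theorem van_qExpansion_coeff_zero {g : ℍ → ℂ} (hg : CuspLike g) :
    (qExpansion 1 g).coeff 0 = 0 := by
  rw [UpperHalfPlane.qExpansion_coeff_zero one_pos (van_analyticAt hg) hg.periodic]
  exact hg.zero.valueAtInfty_eq_zero

/-- The cusp function of the discriminant is analytic at `0`. -/
theorem van_analyticAt_discriminant :
    AnalyticAt ℂ (cuspFunction 1 ModularForm.discriminant) 0 :=
  ModularFormClass.analyticAt_cuspFunction_zero CuspForm.discriminant one_pos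
    one_mem_strictPeriods_SL

/-- The constant coefficient of the `q`-expansion of the discriminant vanishes. -/
theorem van_qExpansion_discriminant_coeff_zero :
    (qExpansion 1 ModularForm.discriminant).coeff 0 = 0 :=
  CuspFormClass.qExpansion_coeff_zero CuspForm.discriminant one_pos one_mem_strictPeriods_SL

/-- The `q`-expansion of `g ^ M`. -/
theorem van_qExpansion_pow {g : ℍ → ℂ} (hg : CuspLike g) (M : ℕ) :
    qExpansion 1 (g ^ M) = (qExpansion 1 g) ^ M := by
  have h := UpperHalfPlane.qExpansion_prod (h := 1) (Finset.range M) (F := fun _ => g)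
    (fun _ _ => van_analyticAt hg)
  simpa [Finset.prod_const] using h

/-- The cusp function of `g ^ M` is analytic at `0`. -/
theorem van_analyticAt_pow {g : ℍ → ℂ} (hg : CuspLike g) (M : ℕ) :
    AnalyticAt ℂ (cuspFunction 1 (g ^ M)) 0 := by
  induction M with
  | zero =>
    rw [pow_zero]
    refine UpperHalfPlane.analyticAt_cuspFunction_zero one_pos ?_ ?_ ?_
    · intro z; simp
    · exact (mdifferentiable_const : MDifferentiable 𝓘(ℂ) 𝓘(ℂ) (fun _ : ℍ => (1 : ℂ)))
    · exact Filter.const_boundedAtFilter atImInfty (1 : ℂ)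
  | succ M ih =>
    rw [pow_succ, UpperHalfPlane.cuspFunction_mul ih.continuousAt (van_analyticAt hg).continuousAt]
    exact ih.mul (van_analyticAt hg)

/-- The `q`-expansion of `g ^ M * Δ` vanishes to order `> M`. -/
theorem van_qExpansion_coeff {g : ℍ → ℂ} (hg : CuspLike g) (M n : ℕ) (hn : n ≤ M) :
    (qExpansion 1 (g ^ M * ModularForm.discriminant)).coeff n = 0 := by
  rw [UpperHalfPlane.qExpansion_mul (van_analyticAt_pow hg M) van_analyticAt_discriminant,
    van_qExpansion_pow hg M]
  have h1 : (PowerSeries.X : PowerSeries ℂ) ∣ qExpansion 1 g := by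
    rw [PowerSeries.X_dvd_iff, ← PowerSeries.coeff_zero_eq_constantCoeff_apply]
    exact van_qExpansion_coeff_zero hg
  have h2 : (PowerSeries.X : PowerSeries ℂ) ∣ qExpansion 1 ModularForm.discriminant := by
    rw [PowerSeries.X_dvd_iff, ← PowerSeries.coeff_zero_eq_constantCoeff_apply]
    exact van_qExpansion_discriminant_coeff_zero
  have h3 : (PowerSeries.X : PowerSeries ℂ) ^ (M + 1) ∣
      (qExpansion 1 g) ^ M * qExpansion 1 ModularForm.discriminant := by
    rw [pow_succ]
    exact mul_dvd_mul (pow_dvd_pow_of_dvd h1 M) h2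
  exact PowerSeries.X_pow_dvd_iff.mp h3 n (Nat.lt_succ_of_le hn)

/-- A cusp-form-like function which is slash-invariant of weight `w ≤ 0` under `Gamma0 N`
vanishes identically.  (Apply the Sturm bound to the modular form `g ^ M * Δ` of weight
`M * w + 12`, `M = index + 1`.) -/
theorem CuspLike.eq_zero_of_slash_invariant {N : ℕ} [NeZero N] {g : ℍ → ℂ} (hg : CuspLike g)
    {w : ℤ} (hw : w ≤ 0) (hinv : ∀ γ ∈ Gamma0 N, g ∣[w] γ = g) : g = 0 := by
  set M : ℕ := (Gamma0 N).index + 1 with hM
  have hU : van_modularForm hg hw hinv M = 0 := by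
    refine ModularForm.sturm_bound_Gamma0 N (van_modularForm hg hw hinv M) ?_
    intro n hn
    rw [van_modularForm_coe]
    refine van_qExpansion_coeff hg M n (le_trans hn ?_)
    have hW : ((M : ℤ) * w + 12) * ((Gamma0 N).index : ℤ) ≤ 12 * ((Gamma0 N).index : ℤ) := by
      have h1 : (M : ℤ) * w ≤ 0 := mul_nonpos_of_nonneg_of_nonpos (by positivity) hw
      have h2 : (0 : ℤ) ≤ ((Gamma0 N).index : ℤ) := by positivity
      nlinarith
    have h3 : (((M : ℤ) * w + 12) * ((Gamma0 N).index : ℤ)).toNat ≤ 12 * (Gamma0 N).index := by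
      rw [Int.toNat_le]
      exact_mod_cast hW
    have h4 : (((M : ℤ) * w + 12) * ((Gamma0 N).index : ℤ)).toNat / 12 ≤ (Gamma0 N).index := by
      omega
    omega
  funext τ
  have h := DFunLike.congr_fun hU τ
  rw [van_modularForm_coe] at h
  simp only [Pi.mul_apply, Pi.pow_apply, zero_apply] at h
  rcases mul_eq_zero.mp h with h | h
  · exact eq_zero_of_pow_eq_zero h
  · exact absurd h (ModularForm.discriminant_ne_zero τ)

end Fermat.Agent.S22
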