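import Mathlib
import Fermat.Agent.S22.CocycleOfForm
import Fermat.Agent.S22.Vanishing

/-!
# S22, part 7: injectivity of the Eichler–Shimura map
-/

set_option autoImplicit false

namespace Fermat.Agent.S22

open Complex CongruenceSubgroup Filter Topology MvPolynomial
open UpperHalfPlane hiding I
open scoped MatrixGroups ModularForm Manifold Real

/-- Evaluating a homogeneous polynomial of degree `n` at a scaled point. -/
theorem eval_scale_of_isHomogeneous_inj {R : Type*} [CommRing R] {σ : Type*}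
    {P : MvPolynomial σ R} {n : ℕ} (hP : P.IsHomogeneous n) (c : R) (u : σ → R) :
    eval (fun i => c * u i) P = c ^ n * eval u P := by
  rw [MvPolynomial.eval_eq, MvPolynomial.eval_eq, Finset.mul_sum]
  refine Finset.sum_congr rfl fun d hd => ?_
  have hdeg : n = ∑ i ∈ d.support, d i := hP.degree_eq_sum_deg_support hd
  simp_rw [mul_pow]
  rw [Finset.prod_mul_distrib, Finset.prod_pow_eq_pow_sum, ← hdeg]
  ring

variable {N : ℕ} [NeZero N] {m : ℕ}

/-- If the cocycle of `f` vanishes then the `(m+1)`-st iterated primitive of `f` is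
slash-invariant of weight `-m` under `Gamma0 N`. -/
theorem iterPrim_slash_invariant (f : CuspForm (Gamma0 N) ((m : ℤ) + 2))
    (hc : cocycleOfFun N m f = 0) :
    ∀ γ ∈ Gamma0 N, (fun τ : ℍ => iterPrim f (m + 1) (τ : ℂ)) ∣[-(m : ℤ)] γ =
      fun τ : ℍ => iterPrim f (m + 1) (τ : ℂ) := by
  intro γ hγ
  funext τ
  rw [ModularForm.SL_slash_apply]
  have h := cocycleOfFun_eq f ⟨γ, hγ⟩ τ
  rw [hc] at h
  have h' : subst ℂ (toMat (⟨γ, hγ⟩ : ↥(Gamma0 N))) (eichlerF f m (γ • τ)) = eichlerF f m τ :=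
    sub_eq_zero.mp h
  have h2 := congrArg (eval ![(τ : ℂ), 1]) h'
  rw [eval_subst, eval_eichlerF_diag] at h2
  have hden : denom γ τ ≠ 0 := denom_ne_zero _ τ
  have hdenom : denom γ τ = ((γ 1 0 : ℤ) : ℂ) * (τ : ℂ) + ((γ 1 1 : ℤ) : ℂ) :=
    ModularGroup.denom_apply γ τ
  have hcoe : ((γ • τ : ℍ) : ℂ) = (((γ 0 0 : ℤ) : ℂ) * (τ : ℂ) + ((γ 0 1 : ℤ) : ℂ)) /
      (((γ 1 0 : ℤ) : ℂ) * (τ : ℂ) + ((γ 1 1 : ℤ) : ℂ)) := by
    rw [coe_specialLinearGroup_apply]
    simp only [algebraMap_int_eq, eq_intCast, Complex.ofReal_intCast]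
  have hw : (fun i : Fin 2 => ((toMat (⟨γ, hγ⟩ : ↥(Gamma0 N)) i 0 : ℤ) : ℂ) * (![(τ : ℂ), 1] 0) +
      ((toMat (⟨γ, hγ⟩ : ↥(Gamma0 N)) i 1 : ℤ) : ℂ) * (![(τ : ℂ), 1] 1))
      = fun i => denom γ τ * ![((γ • τ : ℍ) : ℂ), 1] i := by
    funext i
    fin_cases i
    · show ((γ 0 0 : ℤ) : ℂ) * (τ : ℂ) + ((γ 0 1 : ℤ) : ℂ) * 1 = denom γ τ * ((γ • τ : ℍ) : ℂ)
      rw [hcoe, ← hdenom, mul_one]
      field_simp
    · show ((γ 1 0 : ℤ) : ℂ) * (τ : ℂ) + ((γ 1 1 : ℤ) : ℂ) * 1 = denom γ τ * 1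
      rw [hdenom, mul_one, mul_one]
  rw [hw, eval_scale_of_isHomogeneous_inj (eichlerF_isHomogeneous f m _), eval_eichlerF_diag] at h2
  have hfac : (m.factorial : ℂ) ≠ 0 := Nat.cast_ne_zero.mpr (Nat.factorial_ne_zero m)
  simp only [neg_neg, zpow_natCast]
  apply mul_left_cancel₀ hfac
  rw [← h2]; ring

variable (N m) in
/-- The Eichler–Shimura map is injective. -/
theorem eichlerShimura_injective : Function.Injective (eichlerShimura N m) := by
  rw [injective_iff_map_eq_zero]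
  intro f hf0
  have hc : cocycleOfFun N m f = 0 := hf0
  have hf : CuspLike (f : ℍ → ℂ) := cuspLike_cuspForm_add_two f
  have hg : CuspLike (fun τ : ℍ => iterPrim f (m + 1) (τ : ℂ)) := hf.iterPrim (m + 1)
  have hw : -(m : ℤ) ≤ 0 := by omega
  have hg0 : (fun τ : ℍ => iterPrim f (m + 1) (τ : ℂ)) = 0 :=
    hg.eq_zero_of_slash_invariant hw (iterPrim_slash_invariant f hc)
  have hf0' : (f : ℍ → ℂ) = 0 :=
    eq_zero_of_iterPrim_eq_zero hf (m + 1) (fun τ => congrFun hg0 τ)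
  exact DFunLike.coe_injective hf0'

end Fermat.Agent.S22
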