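import Mathlib
import Fermat.Agent.S22.Cocycle

/-!
# S22, part 3(b): complex cocycles are complex linear combinations of integral cocycles

Strategy (Hamel basis descent `ℂ → ℚ → ℤ`):
* `coeffMap l` applies an additive map `l : A →+ B` to the coefficients of a polynomial; it
  commutes with the substitutions `subst _ g` by integer matrices (`coeffMap_subst`) and
  preserves homogeneity, so it maps cocycles to cocycles (`ratCocycle_isCocycle`).
* For a `ℚ`-basis `b` of `ℂ`, a cocycle `c` is the finite sum `∑ i, b i • c_i` of its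
  "coordinate cocycles" `c_i = ratCocycle (b.coord i) c` (`eq_sum_ratCocycle`), which have
  rational coefficients.
* A cocycle with rational coefficients has a common denominator on a finite generating set, hence
  everywhere (`ratCocycle_mem_span`).
-/

set_option autoImplicit false

namespace Fermat.Agent.S22

open MvPolynomial CongruenceSubgroup
open scoped MatrixGroups

section coeffMap

variable {A B : Type*} [CommRing A] [CommRing B]

/-- Underlying function of `coeffMap`. -/
noncomputable def coeffMapFun (l : A →+ B) (P : MvPolynomial (Fin 2) A) : MvPolynomial (Fin 2) B :=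
  ∑ s ∈ P.support, monomial s (l (coeff s P))

theorem coeff_coeffMapFun (l : A →+ B) (P : MvPolynomial (Fin 2) A) (s : Fin 2 →₀ ℕ) :
    coeff s (coeffMapFun l P) = l (coeff s P) := by
  classical
  unfold coeffMapFun
  rw [coeff_sum]
  simp only [coeff_monomial]
  rw [Finset.sum_ite_eq']
  split_ifs with h
  · rfl
  · rw [notMem_support_iff.mp h, map_zero]

/-- Apply an additive map `l : A →+ B` to all the coefficients of a polynomial. -/
noncomputable def coeffMap (l : A →+ B) : MvPolynomial (Fin 2) A →+ MvPolynomial (Fin 2) B where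
  toFun := coeffMapFun l
  map_zero' := by
    ext s
    rw [coeff_coeffMapFun, coeff_zero, coeff_zero, map_zero]
  map_add' P Q := by
    ext s
    rw [coeff_coeffMapFun, coeff_add, coeff_add, coeff_coeffMapFun, coeff_coeffMapFun, map_add]

theorem coeff_coeffMap (l : A →+ B) (P : MvPolynomial (Fin 2) A) (s : Fin 2 →₀ ℕ) :
    coeff s (coeffMap l P) = l (coeff s P) :=
  coeff_coeffMapFun l P s

theorem coeffMap_monomial (l : A →+ B) (s : Fin 2 →₀ ℕ) (a : A) :
    coeffMap l (monomial s a) = monomial s (l a) := by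
  classical
  ext t
  rw [coeff_coeffMap, coeff_monomial, coeff_monomial]
  split_ifs
  · rfl
  · exact map_zero l

theorem coeffMap_C_mul_map (l : A →+ B) (a : A) (Q : MvPolynomial (Fin 2) ℤ) :
    coeffMap l (C a * map (Int.castRingHom A) Q) = C (l a) * map (Int.castRingHom B) Q := by
  ext t
  rw [coeff_coeffMap, coeff_C_mul, coeff_C_mul, coeff_map, coeff_map, eq_intCast, eq_intCast,
    mul_comm, ← zsmul_eq_mul, map_zsmul, zsmul_eq_mul, mul_comm]

theorem subst_monomial_eq {R : Type*} [CommRing R] (g : Matrix (Fin 2) (Fin 2) ℤ)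
    (s : Fin 2 →₀ ℕ) (r : R) :
    subst R g (monomial s r) =
      C r * map (Int.castRingHom R) (subst ℤ g (monomial s 1)) := by
  rw [map_subst, map_monomial, map_one]
  conv_lhs => rw [← mul_one r, ← C_mul_monomial, map_mul, subst_C]

/-- KEY LEMMA: applying an additive map to the coefficients commutes with the substitutions by
integer matrices. -/
theorem coeffMap_subst (l : A →+ B) (g : Matrix (Fin 2) (Fin 2) ℤ)
    (P : MvPolynomial (Fin 2) A) :
    coeffMap l (subst A g P) = subst B g (coeffMap l P) := by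
  induction P using MvPolynomial.induction_on' with
  | monomial s a =>
    rw [subst_monomial_eq g s a, coeffMap_C_mul_map, coeffMap_monomial,
      subst_monomial_eq g s (l a)]
  | add p q hp hq =>
    rw [map_add, map_add, map_add, map_add, hp, hq]

theorem coeffMap_isHomogeneous (l : A →+ B) {P : MvPolynomial (Fin 2) A} {n : ℕ}
    (hP : P.IsHomogeneous n) : (coeffMap l P).IsHomogeneous n := by
  intro s hs
  refine hP fun h => hs ?_
  rw [coeff_coeffMap, h, map_zero]

end coeffMap

section denominators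

/-- A polynomial with rational coefficients has a denominator. -/
theorem exists_den_isIntPoly (P : MvPolynomial (Fin 2) ℚ) :
    ∃ D : ℕ, 0 < D ∧ IsIntPoly ((D : ℤ) • map (algebraMap ℚ ℂ) P) := by
  induction P using MvPolynomial.induction_on' with
  | monomial s q =>
    refine ⟨q.den, q.den_pos, monomial s q.num, ?_⟩
    rw [map_monomial, map_monomial, ← map_zsmul]
    congr 1
    rw [zsmul_eq_mul, eq_intCast, eq_ratCast]
    have h : ((q.den : ℚ) * q : ℚ) = (q.num : ℚ) := Rat.den_mul_eq_num q
    exact_mod_cast (congrArg (fun x : ℚ => (x : ℂ)) h).symm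
  | add p q hp hq =>
    obtain ⟨D₁, h₁, h₁'⟩ := hp
    obtain ⟨D₂, h₂, h₂'⟩ := hq
    refine ⟨D₁ * D₂, Nat.mul_pos h₁ h₂, ?_⟩
    rw [map_add, smul_add]
    refine IsIntPoly.add ?_ ?_
    · have h : ((D₁ * D₂ : ℕ) : ℤ) • map (algebraMap ℚ ℂ) p =
          (D₂ : ℤ) • ((D₁ : ℤ) • map (algebraMap ℚ ℂ) p) := by
        rw [smul_smul, Nat.cast_mul, mul_comm]
      rw [h]
      exact h₁'.zsmul _
    · have h : ((D₁ * D₂ : ℕ) : ℤ) • map (algebraMap ℚ ℂ) q =
          (D₁ : ℤ) • ((D₂ : ℤ) • map (algebraMap ℚ ℂ) q) := by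
        rw [smul_smul, Nat.cast_mul]
      rw [h]
      exact h₂'.zsmul _

/-- Finitely many polynomials with rational coefficients have a common denominator. -/
theorem exists_common_den {α : Type*} (T : Finset α) (P : α → MvPolynomial (Fin 2) ℚ) :
    ∃ D : ℕ, 0 < D ∧ ∀ t ∈ T, IsIntPoly ((D : ℤ) • map (algebraMap ℚ ℂ) (P t)) := by
  classical
  induction T using Finset.induction_on with
  | empty => exact ⟨1, one_pos, fun t ht => absurd ht (Finset.notMem_empty t)⟩
  | insert a T ha ih =>
    obtain ⟨D₁, h₁, h₁'⟩ := ih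
    obtain ⟨D₂, h₂, h₂'⟩ := exists_den_isIntPoly (P a)
    refine ⟨D₁ * D₂, Nat.mul_pos h₁ h₂, fun t ht => ?_⟩
    rcases Finset.mem_insert.mp ht with rfl | ht
    · have h : ((D₁ * D₂ : ℕ) : ℤ) • map (algebraMap ℚ ℂ) (P t) =
          (D₁ : ℤ) • ((D₂ : ℤ) • map (algebraMap ℚ ℂ) (P t)) := by
        rw [smul_smul, Nat.cast_mul]
      rw [h]
      exact h₂'.zsmul _
    · have h : ((D₁ * D₂ : ℕ) : ℤ) • map (algebraMap ℚ ℂ) (P t) =
          (D₂ : ℤ) • ((D₁ : ℤ) • map (algebraMap ℚ ℂ) (P t)) := by
        rw [smul_smul, Nat.cast_mul, mul_comm]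
      rw [h]
      exact (h₁' t ht).zsmul _

end denominators

section main

variable {N m : ℕ}

/-- Apply an additive map `l : ℂ →+ ℚ` to all the coefficients of all the values of `c`. -/
noncomputable def ratCocycle (l : ℂ →+ ℚ) (c : CocycleSpace N) : CocycleSpace N :=
  fun γ => map (algebraMap ℚ ℂ) (coeffMap l (c γ))

theorem coeff_ratCocycle (l : ℂ →+ ℚ) (c : CocycleSpace N) (γ : ↥(Gamma0 N))
    (s : Fin 2 →₀ ℕ) : coeff s (ratCocycle l c γ) = ((l (coeff s (c γ)) : ℚ) : ℂ) := by
  unfold ratCocycle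
  rw [coeff_map, coeff_coeffMap, eq_ratCast]

theorem ratCocycle_isCocycle (l : ℂ →+ ℚ) {c : CocycleSpace N} (hc : IsCocycle N m c) :
    IsCocycle N m (ratCocycle l c) := by
  refine ⟨fun γ δ => ?_, fun γ => ?_⟩
  · unfold ratCocycle
    rw [hc.1 γ δ, map_add, coeffMap_subst, map_add, map_subst]
  · exact (coeffMap_isHomogeneous l (hc.2 γ)).map _

/-- A cocycle with rational coefficients is a complex multiple of an integral cocycle. -/
theorem ratCocycle_mem_span [NeZero N] (l : ℂ →+ ℚ) {c : CocycleSpace N}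
    (hc : IsCocycle N m c) :
    ratCocycle l c ∈ Submodule.span ℂ (intCocycles N m : Set (CocycleSpace N)) := by
  classical
  obtain ⟨S, hS⟩ := Group.fg_def.mp (gamma0_fg N)
  obtain ⟨D, hD, hDS⟩ := exists_common_den S (fun γ => coeffMap l (c γ))
  have hcoc : IsCocycle N m (ratCocycle l c) := ratCocycle_isCocycle l hc
  have hDcoc : IsCocycle N m ((D : ℤ) • ratCocycle l c) :=
    zsmul_mem (show ratCocycle l c ∈ cocycles N m from hcoc) (D : ℤ)
  have hint : (D : ℤ) • ratCocycle l c ∈ intCocycles N m := by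
    refine ⟨hDcoc, ?_⟩
    exact hDcoc.induction IsIntPoly IsIntPoly.zero (fun a b => IsIntPoly.add)
      (fun a => IsIntPoly.neg) (fun g a => IsIntPoly.subst g) (S : Set ↥(Gamma0 N)) hS
      (fun s hs => hDS s hs)
  have hD' : (D : ℂ) ≠ 0 := Nat.cast_ne_zero.mpr hD.ne'
  have h : ratCocycle l c = ((D : ℂ)⁻¹) • ((D : ℤ) • ratCocycle l c) := by
    rw [← Int.cast_smul_eq_zsmul ℂ, smul_smul, Int.cast_natCast, inv_mul_cancel₀ hD', one_smul]
  rw [h]
  exact Submodule.smul_mem _ _ (Submodule.subset_span hint)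

/-- A cocycle is a finite linear combination of its coordinate cocycles with respect to a
`ℚ`-basis of `ℂ`. -/
theorem eq_sum_ratCocycle [NeZero N] {c : CocycleSpace N} (hc : IsCocycle N m c) {ι : Type*}
    (b : Module.Basis ι ℚ ℂ) :
    ∃ I₀ : Finset ι, c = ∑ i ∈ I₀, (b i) • ratCocycle (b.coord i).toAddMonoidHom c := by
  classical
  obtain ⟨S, hS⟩ := Group.fg_def.mp (gamma0_fg N)
  let I₀ : Finset ι :=
    S.biUnion fun γ => (c γ).support.biUnion fun s => (b.repr (coeff s (c γ))).support
  have hzero : ∀ i, i ∉ I₀ → ratCocycle (b.coord i).toAddMonoidHom c = 0 := by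
    intro i hi
    refine (ratCocycle_isCocycle _ hc).eq_zero_of_generators (S : Set ↥(Gamma0 N)) hS ?_
    intro γ hγ
    ext s
    rw [coeff_ratCocycle, coeff_zero]
    by_contra hne
    apply hi
    have h1 : b.repr (coeff s (c γ)) i ≠ 0 := by
      intro h0
      apply hne
      have : (b.coord i).toAddMonoidHom (coeff s (c γ)) = 0 := h0
      rw [this, Rat.cast_zero]
    have h2 : coeff s (c γ) ≠ 0 := by
      intro h0
      apply h1
      rw [h0, map_zero, Finsupp.zero_apply]
    exact Finset.mem_biUnion.mpr ⟨γ, hγ, Finset.mem_biUnion.mpr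
      ⟨s, mem_support_iff.mpr h2, Finsupp.mem_support_iff.mpr h1⟩⟩
  refine ⟨I₀, ?_⟩
  funext γ
  ext s
  rw [Finset.sum_apply, coeff_sum]
  have hsupp : (b.repr (coeff s (c γ))).support ⊆ I₀ := by
    intro i hi
    by_contra hni
    have h3 := congrArg (coeff s) (congrFun (hzero i hni) γ)
    rw [coeff_ratCocycle, Pi.zero_apply, coeff_zero, Rat.cast_eq_zero] at h3
    exact (Finsupp.mem_support_iff.mp hi) h3
  conv_lhs =>
    rw [← b.linearCombination_repr (coeff s (c γ)), Finsupp.linearCombination_apply,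
      Finsupp.sum_of_support_subset _ hsupp (fun i a => a • b i) (fun i _ => zero_smul _ _)]
  refine Finset.sum_congr rfl fun i _ => ?_
  rw [Pi.smul_apply, coeff_smul, coeff_ratCocycle, smul_eq_mul, mul_comm, Rat.smul_def]
  rfl

end main

/-- Every complex cocycle is a `ℂ`-linear combination of integral cocycles. -/
theorem cocycles_le_span (N : ℕ) [NeZero N] (m : ℕ) :
    (cocycles N m : Set (CocycleSpace N)) ⊆
      Submodule.span ℂ (intCocycles N m : Set (CocycleSpace N)) := by
  intro c hc
  have hc' : IsCocycle N m c := hc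
  obtain ⟨I₀, hI₀⟩ := eq_sum_ratCocycle hc' (Module.Basis.ofVectorSpace ℚ ℂ)
  rw [hI₀]
  exact Submodule.sum_mem _ fun i _ => Submodule.smul_mem _ _ (ratCocycle_mem_span _ hc')

end Fermat.Agent.S22
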