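import Mathlib
import Fermat.Prelude.Thm_ModularForm_sturm_bound_Gamma0
import Fermat.Prelude.Thm_CongruenceSubgroup_one_mem_strictPeriods_Gamma0

/-!
# S22, part 0: there are no nonzero cusp forms of weight `k ≤ 1` for `Gamma0 N`
-/

set_option autoImplicit false

namespace Fermat.Agent.S22

open Complex CongruenceSubgroup
open UpperHalfPlane hiding I
open scoped MatrixGroups ModularForm

namespace TrivialWeight

/-- Cusp forms of weight `k ≤ 0` for `Gamma0 N` vanish, by the Sturm bound. -/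
theorem cuspForm_eq_zero_of_nonpos (N : ℕ) [NeZero N] (k : ℤ) (hk : k ≤ 0)
    (f : CuspForm (Gamma0 N) k) : f = 0 := by
  have h1 : (1 : ℝ) ∈ (Subgroup.map (Matrix.SpecialLinearGroup.mapGL ℝ)
      (CongruenceSubgroup.Gamma0 N)).strictPeriods :=
    CongruenceSubgroup.one_mem_strictPeriods_Gamma0 N
  have hf0 : (UpperHalfPlane.qExpansion 1 f).coeff 0 = 0 :=
    CuspFormClass.qExpansion_coeff_zero f one_pos h1
  have hidx : (k * ((CongruenceSubgroup.Gamma0 N).index : ℤ)).toNat / 12 = 0 := by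
    have h0 : k * ((CongruenceSubgroup.Gamma0 N).index : ℤ) ≤ 0 :=
      mul_nonpos_of_nonpos_of_nonneg hk (Int.natCast_nonneg _)
    rw [Int.toNat_of_nonpos h0]
  have key : (CuspForm.toModularFormₗ f) = 0 := by
    apply ModularForm.sturm_bound_Gamma0 N
    intro n hn
    rw [hidx] at hn
    have hn0 : n = 0 := by omega
    subst hn0
    exact hf0
  exact CuspForm.toModularFormₗ_injective (by rw [key, _root_.map_zero])

/-- `-1` belongs to (the image in `GL (Fin 2) ℝ` of) `Gamma0 N`. -/
theorem neg_one_mem_Gamma0_map (N : ℕ) :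
    (-1 : GL (Fin 2) ℝ) ∈ Subgroup.map (Matrix.SpecialLinearGroup.mapGL ℝ) (Gamma0 N) := by
  refine ⟨-1, ?_, ?_⟩
  · simp [Gamma0_mem]
  · ext i j
    simp

/-- Cusp forms of weight `1` for `Gamma0 N` vanish, since `-1 ∈ Gamma0 N`. -/
theorem cuspForm_eq_zero_of_one (N : ℕ) (f : CuspForm (Gamma0 N) 1) : f = 0 := by
  ext z
  have hf := SlashInvariantForm.slash_action_eqn'' f (neg_one_mem_Gamma0_map N) z
  rw [neg_smul, one_smul, denom_neg, denom_one, Odd.neg_one_zpow (by decide)] at hf
  have h2 : (2 : ℂ) * f z = 0 := by linear_combination hf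
  exact (mul_eq_zero.mp h2).resolve_left (by norm_num)

end TrivialWeight

/-- Cusp forms of weight `k ≤ 0` vanish (Sturm bound), and cusp forms of weight `1` vanish since
`-1 ∈ Gamma0 N`. -/
theorem subsingleton_cuspForm_of_le_one (N : ℕ) [NeZero N] (k : ℤ) (hk : k ≤ 1) :
    Subsingleton (CuspForm (Gamma0 N) k) := by
  refine ⟨fun f g => ?_⟩
  rcases hk.lt_or_eq with hlt | rfl
  · rw [TrivialWeight.cuspForm_eq_zero_of_nonpos N k (by omega) f,
      TrivialWeight.cuspForm_eq_zero_of_nonpos N k (by omega) g]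
  · rw [TrivialWeight.cuspForm_eq_zero_of_one N f, TrivialWeight.cuspForm_eq_zero_of_one N g]

end Fermat.Agent.S22
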