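import Mathlib
import Fermat.Prelude.Def_CuspForm_HeckeAlgebra
import Fermat.Agent.S22.Algebra
import Fermat.Agent.S22.Span
import Fermat.Agent.S22.Equivariance
import Fermat.Agent.S22.Injectivity
import Fermat.Agent.S22.TrivialWeight

/-!
# S22, part 8: assembly
-/

set_option autoImplicit false

namespace Fermat.Agent.S22

open CongruenceSubgroup CuspForm
open scoped MatrixGroups ModularForm

theorem result_weight_ge_two (N : ℕ) [NeZero N] (m : ℕ) (S : Set ℕ) :
    Module.Finite ℤ (CuspForm.heckeAlgebra N ((m : ℤ) + 2) S) := by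
  refine finite_adjoin_of_lattice (eichlerShimura N m) (eichlerShimura_injective N m)
    (intCocycles N m) (intCocycles_fg N m) ?_ (CuspForm.heckeGenerators N ((m : ℤ) + 2) S) ?_
  · rintro _ ⟨f, rfl⟩
    exact cocycles_le_span N m (eichlerShimura_mem_cocycles f)
  · rintro T (⟨ℓ, hℓ, hℓN, -, rfl⟩ | ⟨q, hqN, hq, -, rfl⟩)
    · exact ⟨(heckeDatumT N ℓ hℓ hℓN).heckeOp,
        fun c hc => (heckeDatumT N ℓ hℓ hℓN).heckeOp_mem_intCocycles hc,
        fun f => eichlerShimura_heckeT hℓ hℓN f⟩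
    · exact ⟨(heckeDatumU N q hq hqN).heckeOp,
        fun c hc => (heckeDatumU N q hq hqN).heckeOp_mem_intCocycles hc,
        fun f => eichlerShimura_heckeU hq hqN f⟩

theorem result_all (N : ℕ) [NeZero N] (k : ℤ) (S : Set ℕ) :
    Module.Finite ℤ (CuspForm.heckeAlgebra N k S) := by
  by_cases hk : k ≤ 1
  · haveI := subsingleton_cuspForm_of_le_one N k hk
    haveI : Subsingleton (Module.End ℂ (CuspForm (Gamma0 N) k)) :=
      ⟨fun a b => LinearMap.ext fun x => Subsingleton.elim _ _⟩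
    infer_instance
  · obtain ⟨m, rfl⟩ : ∃ m : ℕ, k = (m : ℤ) + 2 := ⟨(k - 2).toNat, by omega⟩
    exact result_weight_ge_two N m S

end Fermat.Agent.S22
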